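import Fermat.Agent.S48.EIS.Series

/-!
# S48 / EIS : the generators `x_v`: ANALYTIC functions, and the dictionary with the formal series
TASKS S48/EIS-BridgeA (general lemmas on `S24.HolCusp`, `S24.laurent`), S48/EIS-BridgeB (`Gn`), S48/EIS-BridgeC (`Xf`).

`S24.HolCusp h` = holomorphic `h`-periodic functions on `ℍ`, meromorphic at `i∞`; `S24.laurent h : HolCusp h →ₐ[ℂ] ℂ((t))` the
expansion in `t = e(τ/h)` (`Fermat/Agent/S24/Laurent.lean`, `QDict.lean`, `Cusp.lean`).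
-/

set_option autoImplicit false

open UpperHalfPlane hiding I
open Complex Filter Topology Function Matrix ModularCurve
open scoped Real MatrixGroups Manifold ModularForm

namespace Fermat.Agent.S48.EIS

open Fermat.Agent.S24

noncomputable section

local notation "𝕢" => Periodic.qParam

/-! ### general lemmas (TASK BridgeA) -/

/-- A convergent expansion is THE expansion.  (`tendsto_of_hasSum` gives boundedness; `laurent_of_bounded`; uniqueness of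
the `q`-expansion: Mathlib `qExpansion_coeff_unique`, cf. `E1/QExp.lean : qe_coeff_of_hasSum`.) -/
theorem laurent_of_hasSum (h : ℕ) [NeZero h] (f : HolCusp h) (c : ℕ → ℂ)
    (hf : ∀ τ : ℍ, HasSum (fun n : ℕ => c n • 𝕢 (h : ℝ) τ ^ n) ((f : ℍ → ℂ) τ)) :
    laurent h f = HahnSeries.ofPowerSeries ℤ ℂ (PowerSeries.mk c) := by
  have hb : IsBoundedAtImInfty (f : ℍ → ℂ) :=
    (tendsto_of_hasSum (Laurent.hpos h) hf).isBigO_one ℝ
  have hNB : Laurent.NB (h : ℝ) (f : ℍ → ℂ) := ⟨f.2.1, f.2.2.1, hb⟩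
  rw [laurent_of_bounded h f hb]
  congr 1
  ext n
  rw [PowerSeries.coeff_mk]
  exact (Laurent.coeff_unique (Laurent.hpos h) (hNB.analytic (Laurent.hpos h)) hf n).symm

/-- `1`-periodic `⇒` `h`-periodic. -/
theorem mem_HolCusp_of_one (h : ℕ) [NeZero h] {f : ℍ → ℂ} (hf : f ∈ HolCusp 1) : f ∈ HolCusp h := by
  obtain ⟨h1, h2, m, hm⟩ := hf
  refine ⟨h1, ?_, h * m, ?_⟩
  · have := h2.nat_mul h
    simpa using this
  · have he : (fun τ : ℍ => f τ * qh h τ ^ (h * m)) = fun τ => f τ * qh 1 τ ^ m := by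
      funext τ
      rw [pow_mul, Cusp.qh_pow]
    rw [he]
    exact hm

private theorem laurent_of_one_bdd (h : ℕ) [NeZero h] (g : HolCusp 1)
    (hg : IsBoundedAtImInfty (g : ℍ → ℂ)) :
    laurent h ⟨(g : ℍ → ℂ), mem_HolCusp_of_one h g.2⟩ = qExpand ℂ h (laurent 1 g) := by
  have hd : 0 < h := Nat.pos_of_ne_zero (NeZero.ne h)
  have hper : Function.Periodic ((g : ℍ → ℂ) ∘ ofComplex) ((1 : ℝ) : ℂ) := by
    have := g.2.2.1
    simpa using this
  rw [QDict.laurent_one_of_bounded g hg,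
    laurent_of_hasSum h ⟨(g : ℍ → ℂ), mem_HolCusp_of_one h g.2⟩
      (fun n => if h ∣ n then (qExpansion 1 (g : ℍ → ℂ)).coeff (n / h) else 0)]
  · ext k
    by_cases hk : (h : ℤ) ∣ k
    · obtain ⟨m, rfl⟩ := hk
      rw [qExpand_coeff_mul]
      rcases lt_or_ge m 0 with hm | hm
      · rw [ofPowerSeries_coeff_of_neg _ hm, ofPowerSeries_coeff_of_neg]
        exact mul_neg_of_pos_of_neg (by exact_mod_cast hd) hm
      · lift m to ℕ using hm
        rw [show (h : ℤ) * (m : ℤ) = ((h * m : ℕ) : ℤ) by push_cast; ring,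
          HahnSeries.ofPowerSeries_apply_coeff, HahnSeries.ofPowerSeries_apply_coeff,
          PowerSeries.coeff_mk]
        simp [Nat.mul_div_cancel_left _ hd]
    · rw [qExpand_coeff_of_not_dvd h _ hk]
      rcases lt_or_ge k 0 with hm | hm
      · exact ofPowerSeries_coeff_of_neg _ hm
      · lift k to ℕ using hm
        rw [HahnSeries.ofPowerSeries_apply_coeff, PowerSeries.coeff_mk, if_neg]
        intro h'
        exact hk (by exact_mod_cast h')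
  · intro τ
    show HasSum _ ((g : ℍ → ℂ) τ)
    have h1 := hasSum_qExpansion one_pos hper g.2.1 hg τ
    have hinj : Function.Injective (fun m : ℕ => h * m) := fun a b h' =>
      Nat.eq_of_mul_eq_mul_left hd h'
    rw [← hinj.hasSum_iff]
    · convert h1 using 2 with m
      have hq := Cusp.qh_pow h τ
      simp only [qh] at hq
      simp only [Function.comp_apply, dvd_mul_right, if_true, Nat.mul_div_cancel_left _ hd]
      rw [pow_mul]
      congr 2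
      simpa using hq
    · intro x hx
      have : ¬ h ∣ x := by
        rintro ⟨m, rfl⟩
        exact hx ⟨m, rfl⟩
      simp [this]

/-- change of parameter `q = t^h`.  (Reduce to bounded `f` by multiplying with a power of `q`: `laurent_Tq`,
`qh_pow : qh h τ ^ h = qh 1 τ`; for bounded `f` compare the two convergent expansions: `hasSum_qExpansion` +
`laurent_of_hasSum`.) -/
theorem laurent_of_one (h : ℕ) [NeZero h] (f : HolCusp 1) :
    laurent h ⟨(f : ℍ → ℂ), mem_HolCusp_of_one h f.2⟩ = qExpand ℂ h (laurent 1 f) := by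
  obtain ⟨m, hm⟩ := Laurent.exists_NB f
  have hb : IsBoundedAtImInfty ((f * Laurent.Tq 1 ^ m : HolCusp 1) : ℍ → ℂ) := hm.bdd
  have key := laurent_of_one_bdd h (f * Laurent.Tq 1 ^ m) hb
  have he : (⟨((f * Laurent.Tq 1 ^ m : HolCusp 1) : ℍ → ℂ), mem_HolCusp_of_one h
      (f * Laurent.Tq 1 ^ m).2⟩ : HolCusp h) =
      ⟨(f : ℍ → ℂ), mem_HolCusp_of_one h f.2⟩ * Laurent.Tq h ^ (h * m) := by
    apply Subtype.ext
    funext τ
    show (f : ℍ → ℂ) τ * (Laurent.qq ((1 : ℕ) : ℝ) τ) ^ m =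
      (f : ℍ → ℂ) τ * (Laurent.qq (h : ℝ) τ) ^ (h * m)
    rw [pow_mul]
    congr 2
    exact (Cusp.qh_pow h τ).symm
  rw [he, map_mul, map_mul, map_pow, map_pow, map_mul, map_pow, Laurent.laurent_Tq,
    Laurent.laurent_Tq, qExpand_single, mul_one, pow_mul, HahnSeries.single_pow, one_pow,
    nsmul_eq_mul, mul_one] at key
  refine mul_right_cancel₀ ?_ key
  exact pow_ne_zero _ (by simp)

/-- holomorphic, `h`-periodic, bounded at `i∞`. -/
theorem mem_HolCusp_of_bounded (h : ℕ) [NeZero h] {f : ℍ → ℂ} (h1 : MDiff f)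
    (h2 : ∀ τ : ℍ, f ((h : ℝ) +ᵥ τ) = f τ) (h3 : IsBoundedAtImInfty f) : f ∈ HolCusp h :=
  ⟨h1, Laurent.periodic_of_vadd h2, 0, by simpa using h3⟩

/-- `E₄² / Δ`. -/
def Wf : ℍ → ℂ := fun τ => ModularForm.E₄ τ ^ 2 / ModularForm.discriminant τ

theorem Wf_mem_HolCusp_one : Wf ∈ HolCusp 1 := by
  refine ⟨(ModularForm.E₄.holo'.pow 2).div CuspForm.discriminant.holo'
    ModularForm.discriminant_ne_zero, ?_, 1, ?_⟩
  · intro z
    have h1 := QDict.E4_per z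
    have h2 := QDict.D_per z
    simp only [Function.comp_apply, Nat.cast_one] at h1 h2 ⊢
    simp only [Wf, h1, h2]
  · have h1 := jfun_mul_qh_tendsto.div JBasic.E4_tendsto one_ne_zero
    have h2 : ∀ᶠ τ : ℍ in atImInfty, ModularForm.E₄ τ ≠ 0 :=
      JBasic.E4_tendsto.eventually_ne one_ne_zero
    have h3 : Tendsto (fun τ : ℍ => Wf τ * qh 1 τ ^ 1) atImInfty (𝓝 (1 / 1)) := by
      refine h1.congr' ?_
      filter_upwards [h2] with τ hτ
      have hΔ := ModularForm.discriminant_ne_zero τ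
      simp only [Pi.div_apply, jfun, Wf, pow_one]
      field_simp
    exact h3.isBigO_one ℝ

theorem wfac_mul_DC :
    wfac ℂ * HahnSeries.ofPowerSeries ℤ ℂ Fermat.Agent.S28.DC =
      (HahnSeries.ofPowerSeries ℤ ℂ (eisenstein4.map (Int.castRingHom ℂ))) ^ 2 := by
  have h1 : (eisenstein4 ^ 2 * dedekindEtaUnitInv) * dedekindEtaUnit = eisenstein4 ^ 2 := by
    rw [mul_assoc, mul_comm dedekindEtaUnitInv, dedekindEtaUnit_mul_inv, mul_one]
  have h2 : HahnSeries.single (-1 : ℤ) (1 : ℂ) * HahnSeries.single (1 : ℤ) (1 : ℂ) = 1 := by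
    rw [HahnSeries.single_mul_single]
    simp
  have h3 : (HahnSeries.ofPowerSeries ℤ ℂ (eisenstein4.map (Int.castRingHom ℂ))) ^ 2 =
      HahnSeries.ofPowerSeries ℤ ℂ ((eisenstein4 ^ 2 * dedekindEtaUnitInv).map (Int.castRingHom ℂ)) *
      HahnSeries.ofPowerSeries ℤ ℂ (dedekindEtaUnit.map (Int.castRingHom ℂ)) := by
    rw [← map_mul, ← map_mul, h1, map_pow, map_pow]
  rw [h3, wfac, Fermat.Agent.S28.DC, map_mul (PowerSeries.map (Int.castRingHom ℂ)) PowerSeries.X,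
    map_mul (HahnSeries.ofPowerSeries ℤ ℂ) (PowerSeries.map (Int.castRingHom ℂ) PowerSeries.X),
    PowerSeries.map_X, HahnSeries.ofPowerSeries_X]
  generalize HahnSeries.ofPowerSeries ℤ ℂ ((PowerSeries.map (Int.castRingHom ℂ))
    (eisenstein4 ^ 2 * dedekindEtaUnitInv)) = a
  generalize HahnSeries.ofPowerSeries ℤ ℂ ((PowerSeries.map (Int.castRingHom ℂ)) dedekindEtaUnit) = b
  calc _ = (HahnSeries.single (-1 : ℤ) (1 : ℂ) * HahnSeries.single (1 : ℤ) (1 : ℂ)) * (a * b) := by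
        ring
    _ = _ := by rw [h2, one_mul]

/-- (as `S24.laurent_jd`: `Wf * Δ = E₄²`, `QDict.laurent_E4d 1`, `QDict.laurent_Dd 1`, `S28.DC`.) -/
theorem laurent_Wf : laurent 1 ⟨Wf, Wf_mem_HolCusp_one⟩ = wfac ℂ := by
  have hmulH : ∀ τ : ℍ, mulH 1 τ = τ := by
    intro τ
    ext
    rw [QDict.coe_mulH]
    simp
  have hmul : (⟨Wf, Wf_mem_HolCusp_one⟩ : HolCusp 1) * QDict.Dd 1 = QDict.E4d 1 ^ 2 := by
    apply Subtype.ext
    funext τ
    show Wf τ * ModularForm.discriminant (mulH 1 τ) = (ModularForm.E₄ (mulH 1 τ)) ^ 2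
    rw [hmulH, Wf, div_mul_cancel₀ _ (ModularForm.discriminant_ne_zero _)]
  have h1 := congrArg (laurent 1) hmul
  rw [map_mul, map_pow, QDict.laurent_E4d, QDict.laurent_Dd, qExpand_one_apply, qExpand_one_apply,
    ← wfac_mul_DC] at h1
  refine mul_right_cancel₀ ?_ h1
  intro h0
  exact QDict.DC_ne_zero (HahnSeries.ofPowerSeries_injective (h0.trans (map_zero _).symm))

/-- `Wf` has weight `-4`:  `Wf(γ τ) = (cτ+d)^{-4} Wf(τ)`. -/
theorem Wf_smul (γ : SL(2, ℤ)) (τ : ℍ) : Wf (γ • τ) = denom γ τ ^ (-4 : ℤ) * Wf τ := by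
  unfold Wf
  rw [JBasic.form_smul, JBasic.disc_smul]
  have h1 : denom γ τ ≠ 0 := denom_ne_zero _ _
  have h2 := ModularForm.discriminant_ne_zero τ
  have e1 : denom γ τ ^ (4 : ℤ) = denom γ τ ^ 4 := by norm_cast
  have e2 : denom γ τ ^ (12 : ℤ) = denom γ τ ^ 12 := by norm_cast
  have e3 : denom γ τ ^ (-4 : ℤ) = (denom γ τ ^ 4)⁻¹ := by
    rw [_root_.zpow_neg]; norm_cast
  rw [e1, e2, e3]
  field_simp

theorem Wf_mdiff : MDiff Wf :=
  (ModularForm.E₄.holo'.pow 2).div CuspForm.discriminant.holo' ModularForm.discriminant_ne_zero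

/-! ### the normalised Eisenstein series (TASK BridgeB) -/

variable (M : ℕ) [NeZero M]

/-- `G_{k,v} / K_k`. -/
def Gn (k : ℕ) (v : Fin 2 → ZMod M) : ℍ → ℂ := fun τ => G M k v τ / K M k

variable {M}

theorem Gn_mdiff {k : ℕ} (hk : 3 ≤ k) (v : Fin 2 → ZMod M) : MDiff (Gn M k v) := by
  have h := (G_mdiff hk v).const_smul (K M k)⁻¹
  have e : Gn M k v = (K M k)⁻¹ • G M k v := by
    funext τ
    rw [Gn, Pi.smul_apply, smul_eq_mul, div_eq_inv_mul]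
  rw [e]
  exact h

/-- `G_{k,v}(γ τ) = (cτ+d)^k G_{k,vγ}(τ)` (`G_slash`, `ModularForm.SL_slash_apply`). -/
theorem Gn_smul (k : ℕ) (v : Fin 2 → ZMod M) (γ : SL(2, ℤ)) (τ : ℍ) :
    Gn M k v (γ • τ) = denom γ τ ^ (k : ℤ) * Gn M k (v ᵥ* γ) τ := by
  have h := congrFun (G_slash k v γ) τ
  rw [ModularForm.SL_slash_apply] at h
  have hd : denom γ τ ≠ 0 := denom_ne_zero _ τ
  rw [Gn, Gn, ← h, _root_.zpow_neg]
  have hd' : denom γ τ ^ (k : ℤ) ≠ 0 := zpow_ne_zero _ hd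
  field_simp

theorem BridgeB_qParam_add (h : ℝ) (hh : h ≠ 0) (z : ℂ) : 𝕢 h (z + h) = 𝕢 h z := by
  have hh' : (h : ℂ) ≠ 0 := Complex.ofReal_ne_zero.2 hh
  rw [Periodic.qParam, Periodic.qParam]
  have e : 2 * π * I * (z + h) / h = 2 * π * I * z / h + 2 * π * I := by
    field_simp
  rw [e]
  exact Complex.exp_periodic _

/-- (`γ = T^M` fixes `v`; or directly from `hasSum_G`.) -/
theorem Gn_vadd {k : ℕ} (hk : 3 ≤ k) (v : Fin 2 → ZMod M) (τ : ℍ) :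
    Gn M k v ((M : ℝ) +ᵥ τ) = Gn M k v τ := by
  have h1 := hasSum_G hk v ((M : ℝ) +ᵥ τ)
  have h2 := hasSum_G hk v τ
  have hq : 𝕢 (M : ℝ) (((M : ℝ) +ᵥ τ : ℍ) : ℂ) = 𝕢 (M : ℝ) (τ : ℂ) := by
    rw [UpperHalfPlane.coe_vadd, add_comm]
    exact BridgeB_qParam_add (M : ℝ) (Nat.cast_ne_zero.2 (NeZero.ne M)) (τ : ℂ)
  rw [hq] at h1
  rw [Gn, Gn, h1.unique h2]

theorem Gn_mem_HolCusp {k : ℕ} (hk : 3 ≤ k) (v : Fin 2 → ZMod M) : Gn M k v ∈ HolCusp M := by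
  refine mem_HolCusp_of_bounded M (Gn_mdiff hk v) (Gn_vadd hk v) ?_
  have h := (G_isBoundedAtImInfty hk v).const_mul_left (K M k)⁻¹
  have e : Gn M k v = fun τ => (K M k)⁻¹ * G M k v τ := by
    funext τ
    rw [Gn, div_eq_inv_mul]
  rw [e]
  exact h

theorem laurent_Gn {k : ℕ} (hk : k = 3 ∨ k = 4) (hk' : 3 ≤ k) (v : Fin 2 → ZMod M) (hv : v ≠ 0) :
    laurent M ⟨Gn M k v, Gn_mem_HolCusp hk' v⟩ = HahnSeries.ofPowerSeries ℤ ℂ (gs (zeta M) k v) := by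
  exact laurent_of_hasSum M ⟨Gn M k v, Gn_mem_HolCusp hk' v⟩ (nc (zeta M) k v)
    (fun τ => hasSum_G_div_K hk v hv τ)

theorem Gn₀_mem_HolCusp_one {k : ℕ} (hk : 3 ≤ k) (a : ZMod M) : Gn M k ![0, a] ∈ HolCusp 1 := by
  refine mem_HolCusp_of_bounded 1 (Gn_mdiff hk _) (fun τ => ?_) ?_
  · have h1 := hasSum_G₀ hk a (((1 : ℕ) : ℝ) +ᵥ τ)
    have h2 := hasSum_G₀ hk a τ
    have hq : 𝕢 (1 : ℝ) (((((1 : ℕ) : ℝ)) +ᵥ τ : ℍ) : ℂ) = 𝕢 (1 : ℝ) (τ : ℂ) := by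
      rw [UpperHalfPlane.coe_vadd, add_comm, Nat.cast_one]
      exact BridgeB_qParam_add (1 : ℝ) one_ne_zero (τ : ℂ)
    rw [hq] at h1
    rw [Gn, Gn, h1.unique h2]
  · have h := (G_isBoundedAtImInfty hk ![0, a]).const_mul_left (K M k)⁻¹
    have e : Gn M k ![0, a] = fun τ => (K M k)⁻¹ * G M k ![0, a] τ := by
      funext τ
      rw [Gn, div_eq_inv_mul]
    rw [e]
    exact h

theorem laurent_Gn₀ {k : ℕ} (hk : k = 3 ∨ k = 4) (hk' : 3 ≤ k) (a : ZMod M) (ha : a ≠ 0) :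
    laurent 1 ⟨Gn M k ![0, a], Gn₀_mem_HolCusp_one hk' a⟩ =
      HahnSeries.ofPowerSeries ℤ ℂ (gs₀ (zeta M) k a) := by
  refine laurent_of_hasSum 1 ⟨Gn M k ![0, a], Gn₀_mem_HolCusp_one hk' a⟩ (nc₀ (zeta M) k a)
    (fun τ => ?_)
  rw [Nat.cast_one]
  exact hasSum_G₀_div_K hk a ha τ

/-! ### the functions `x_v` (TASK BridgeC) -/

variable (M)

/-- `x_v = (G_{4,v} / K_4) E₄² / Δ`: weight `0`. -/
def Xf (v : Fin 2 → ZMod M) : ℍ → ℂ := fun τ => Gn M 4 v τ * Wf τ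

variable {M}

theorem Xf_mdiff (v : Fin 2 → ZMod M) : MDiff (Xf M v) := by
  exact (Gn_mdiff (by norm_num) v).mul Wf_mdiff

/-- **`x_v ∘ γ = x_{vγ}`.** -/
theorem Xf_smul (v : Fin 2 → ZMod M) (γ : SL(2, ℤ)) (τ : ℍ) : Xf M v (γ • τ) = Xf M (v ᵥ* γ) τ := by
  have hd : denom γ τ ≠ 0 := denom_ne_zero γ τ
  unfold Xf
  rw [Gn_smul, Wf_smul]
  have h1 : denom γ τ ^ ((4 : ℕ) : ℤ) * denom γ τ ^ (-4 : ℤ) = 1 := by
    rw [← zpow_add₀ hd]
    norm_num
  calc denom γ τ ^ ((4 : ℕ) : ℤ) * Gn M 4 (v ᵥ* γ) τ * (denom γ τ ^ (-4 : ℤ) * Wf τ)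
      = (denom γ τ ^ ((4 : ℕ) : ℤ) * denom γ τ ^ (-4 : ℤ)) * (Gn M 4 (v ᵥ* γ) τ * Wf τ) := by ring
    _ = Gn M 4 (v ᵥ* γ) τ * Wf τ := by rw [h1, one_mul]

theorem Xf_neg (v : Fin 2 → ZMod M) : Xf M (-v) = Xf M v := by
  funext τ
  unfold Xf Gn
  rw [G_neg]
  norm_num

theorem Xf_mem_HolCusp (v : Fin 2 → ZMod M) : Xf M v ∈ HolCusp M := by
  exact (HolCusp M).mul_mem (Gn_mem_HolCusp (by norm_num) v)
    (mem_HolCusp_of_one M Wf_mem_HolCusp_one)

/-- **the expansion of `x_v` in `x = q^{1/M}`.** -/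
theorem laurent_Xf (v : Fin 2 → ZMod M) (hv : v ≠ 0) :
    laurent M ⟨Xf M v, Xf_mem_HolCusp v⟩ = xs (zeta M) v := by
  have h : (⟨Xf M v, Xf_mem_HolCusp v⟩ : HolCusp M)
      = ⟨Gn M 4 v, Gn_mem_HolCusp (by norm_num) v⟩
        * ⟨Wf, mem_HolCusp_of_one M Wf_mem_HolCusp_one⟩ := rfl
  rw [h, map_mul, laurent_Gn (Or.inr rfl) (by norm_num) v hv,
    laurent_of_one M ⟨Wf, Wf_mem_HolCusp_one⟩, laurent_Wf]
  rfl

theorem Xf₀_mem_HolCusp_one (a : ZMod M) : Xf M ![0, a] ∈ HolCusp 1 := by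
  exact (HolCusp 1).mul_mem (Gn₀_mem_HolCusp_one (by norm_num) a) Wf_mem_HolCusp_one

/-- **the `q`-expansion of `x_{(0,a)}`.** -/
theorem laurent_Xf₀ (a : ZMod M) (ha : a ≠ 0) :
    laurent 1 ⟨Xf M ![0, a], Xf₀_mem_HolCusp_one a⟩ = xs₀ (zeta M) a := by
  have h : (⟨Xf M ![0, a], Xf₀_mem_HolCusp_one a⟩ : HolCusp 1)
      = ⟨Gn M 4 ![0, a], Gn₀_mem_HolCusp_one (by norm_num) a⟩ * ⟨Wf, Wf_mem_HolCusp_one⟩ := rfl
  rw [h, map_mul, laurent_Gn₀ (Or.inr rfl) (by norm_num) a ha, laurent_Wf]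
  rfl

/-- analytic separation from formal separation. -/
theorem Xf_eq_iff (v v' : Fin 2 → ZMod M) (hv : v ≠ 0) (hv' : v' ≠ 0) :
    Xf M v = Xf M v' ↔ gs (zeta M) 4 v = gs (zeta M) 4 v' := by
  rw [← xs_eq_iff, ← laurent_Xf v hv, ← laurent_Xf v' hv', (laurent_injective M).eq_iff,
    Subtype.mk.injEq]

end

end Fermat.Agent.S48.EIS
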