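import Fermat.Agent.S48.EIS.Lead
import Fermat.Agent.S24.QDict
import Fermat.Agent.S24.Cusp

/-!
# S48 / EIS : the generators `x_v` of the function field of `X(M)`, `X₁(M)`: FORMAL series
TASK S48/EIS-Series.

`R` any field, `z : R` (to be thought of as a primitive `M`-th root of unity), `x = q^{1/M}`.
* `gs z k v  = ∑_n nc z k v n x^n`          (formal `G_{k,v} / K_k`, `k = 3, 4`)
* `gs₀ z k a = ∑_n nc₀ z k a n q^n`         (the same for `v = (0,a)`, as a series in `q`)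
* `wfac R    = q⁻¹ E₄² / ∏ (1 - q^n)^24`     (formal `E₄² / Δ`)
* `xs z v    = gs z 4 v * wfac(x^M)`,   `xs₀ z a = gs₀ z 4 a * wfac`
-/

set_option autoImplicit false

open ModularCurve

namespace Fermat.Agent.S48.EIS

noncomputable section

variable {R S : Type*} [Field R] [Field S] {M : ℕ}

/-- formal `G_{k,v} / K_k`, a power series in `x = q^{1/M}`. -/
def gs (z : R) (k : ℕ) (v : Fin 2 → ZMod M) : PowerSeries R := PowerSeries.mk (nc z k v)

/-- formal `G_{k,(0,a)} / K_k`, a power series in `q`. -/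
def gs₀ (z : R) (k : ℕ) (a : ZMod M) : PowerSeries R := PowerSeries.mk (nc₀ z k a)

/-- formal `E₄² / Δ`. -/
def wfac (R : Type*) [CommRing R] : LaurentSeries R :=
  HahnSeries.single (-1 : ℤ) (1 : R) *
    HahnSeries.ofPowerSeries ℤ R ((eisenstein4 ^ 2 * dedekindEtaUnitInv).map (Int.castRingHom R))

/-- the formal `x_v`, a Laurent series in `x = q^{1/M}`. -/
def xs [NeZero M] (z : R) (v : Fin 2 → ZMod M) : LaurentSeries R :=
  HahnSeries.ofPowerSeries ℤ R (gs z 4 v) * qExpand R M (wfac R)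

/-- the formal `x_{(0,a)}`, a Laurent series in `q`. -/
def xs₀ (z : R) (a : ZMod M) : LaurentSeries R :=
  HahnSeries.ofPowerSeries ℤ R (gs₀ z 4 a) * wfac R

theorem coeff_gs (z : R) (k : ℕ) (v : Fin 2 → ZMod M) (n : ℕ) :
    (gs z k v).coeff n = nc z k v n := PowerSeries.coeff_mk _ _

theorem coeff_gs₀ (z : R) (k : ℕ) (a : ZMod M) (n : ℕ) :
    (gs₀ z k a).coeff n = nc₀ z k a n := PowerSeries.coeff_mk _ _

theorem map_gs [NeZero M] (f : R →+* S) (z : R) (k : ℕ) (v : Fin 2 → ZMod M) :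
    (gs z k v).map f = gs (f z) k v := by
  ext n
  rw [PowerSeries.coeff_map, coeff_gs, coeff_gs, map_nc]

theorem map_gs₀ [NeZero M] (f : R →+* S) (z : R) (k : ℕ) (a : ZMod M) :
    (gs₀ z k a).map f = gs₀ (f z) k a := by
  ext n
  rw [PowerSeries.coeff_map, coeff_gs₀, coeff_gs₀, map_nc₀]

theorem coeffMap_wfac {A B : Type*} [CommRing A] [CommRing B] (f : A →+* B) :
    coeffMap f (wfac A) = wfac B := by
  unfold wfac
  rw [map_mul, coeffMap_single, map_one, coeffMap_ofPowerSeries]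
  congr 2
  ext n
  rw [PowerSeries.coeff_map, PowerSeries.coeff_map, PowerSeries.coeff_map, eq_intCast, eq_intCast,
    map_intCast]

theorem coeff_wfac_neg_one (A : Type*) [CommRing A] : (wfac A).coeff (-1) = 1 := by
  unfold wfac
  have h1 := HahnSeries.coeff_single_mul_add (r := (1 : A)) (a := (0 : ℤ)) (b := (-1 : ℤ))
    (x := HahnSeries.ofPowerSeries ℤ A
      ((eisenstein4 ^ 2 * dedekindEtaUnitInv).map (Int.castRingHom A)))
  rw [zero_add] at h1
  rw [h1, one_mul]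
  have h2 : (0 : ℤ) = ((0 : ℕ) : ℤ) := rfl
  rw [h2, HahnSeries.ofPowerSeries_apply_coeff, PowerSeries.coeff_map,
    PowerSeries.coeff_zero_eq_constantCoeff_apply, map_mul, map_pow, constantCoeff_eisenstein4,
    constantCoeff_dedekindEtaUnitInv]
  simp

theorem wfac_ne_zero : wfac R ≠ 0 := by
  intro h
  have h1 := coeff_wfac_neg_one R
  rw [h, HahnSeries.coeff_zero] at h1
  exact zero_ne_one h1

/-- `wfac = q⁻¹ (1 + ...)`. -/
theorem order_wfac : (wfac R).order = -1 := by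
  apply le_antisymm
  · exact HahnSeries.order_le_of_coeff_ne_zero (by rw [coeff_wfac_neg_one]; exact one_ne_zero)
  · rw [HahnSeries.le_order_iff_forall wfac_ne_zero]
    intro j hj
    unfold wfac
    have h1 : j = (j + 1) + (-1) := by ring
    rw [h1, HahnSeries.coeff_single_mul_add, one_mul]
    exact ofPowerSeries_coeff_of_neg _ (by omega)

theorem coeffMap_xs [NeZero M] (f : R →+* S) (z : R) (v : Fin 2 → ZMod M) :
    coeffMap f (xs z v) = xs (f z) v := by
  unfold xs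
  rw [map_mul, coeffMap_ofPowerSeries, map_gs, coeffMap_qExpand, coeffMap_wfac]

theorem coeffMap_xs₀ [NeZero M] (f : R →+* S) (z : R) (a : ZMod M) :
    coeffMap f (xs₀ z a) = xs₀ (f z) a := by
  unfold xs₀
  rw [map_mul, coeffMap_ofPowerSeries, map_gs₀, coeffMap_wfac]

/-- `nc z k (0,a) n = 0` unless `M ∣ n`, `nc z k (0,a) (M n) = nc₀ z k a n` (`coef_zero_of_not_dvd`, `coef_zero_mul`). -/
theorem ofPowerSeries_gs_zero [NeZero M] (z : R) (k : ℕ) (a : ZMod M) :
    HahnSeries.ofPowerSeries ℤ R (gs z k ![0, a]) =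
      qExpand R M (HahnSeries.ofPowerSeries ℤ R (gs₀ z k a)) := by
  have hM : 0 < M := Nat.pos_of_ne_zero (NeZero.ne M)
  ext j
  by_cases hj : (M : ℤ) ∣ j
  · obtain ⟨i, rfl⟩ := hj
    rw [qExpand_coeff_mul]
    rcases le_or_gt 0 i with hi | hi
    · lift i to ℕ using hi
      have h1 : (M : ℤ) * (i : ℤ) = ((M * i : ℕ) : ℤ) := by push_cast; ring
      rw [h1, HahnSeries.ofPowerSeries_apply_coeff, HahnSeries.ofPowerSeries_apply_coeff, coeff_gs,
        coeff_gs₀]
      rcases Nat.eq_zero_or_pos i with rfl | hi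
      · simp [nc, nc₀]
      · rw [nc, nc₀, if_neg (Nat.mul_ne_zero hM.ne' hi.ne'), if_neg hi.ne', coef_zero_mul _ _ _ _ hi]
    · rw [ofPowerSeries_coeff_of_neg _ hi, ofPowerSeries_coeff_of_neg _ (by nlinarith)]
  · rw [qExpand_coeff_of_not_dvd _ _ hj]
    rcases le_or_gt 0 j with hj0 | hj0
    · lift j to ℕ using hj0
      have hj' : ¬ M ∣ j := fun h => hj (Int.natCast_dvd_natCast.mpr h)
      have hj0 : j ≠ 0 := by
        rintro rfl
        exact hj' (dvd_zero M)
      rw [HahnSeries.ofPowerSeries_apply_coeff, coeff_gs, nc, if_neg hj0,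
        coef_zero_of_not_dvd _ _ _ _ hj']
    · exact ofPowerSeries_coeff_of_neg _ hj0

theorem xs_zero [NeZero M] (z : R) (a : ZMod M) : xs z ![0, a] = qExpand R M (xs₀ z a) := by
  unfold xs xs₀
  rw [map_mul, ofPowerSeries_gs_zero]

theorem Series_Pk_four_inv (w : R) (hw : w ≠ 0) : Pk 4 w⁻¹ = Pk 4 w := by
  have h1 : ∀ u : R, Pk 4 u = u * (1 + 4 * u + u ^ 2) / (1 - u) ^ 4 := fun u => by simp [Pk]
  rw [h1, h1]
  rcases eq_or_ne w 1 with rfl | hw1
  · simp
  · have h2 : 1 - w ≠ 0 := sub_ne_zero.mpr (Ne.symm hw1)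
    have h3 : 1 - w⁻¹ ≠ 0 := by
      rw [sub_ne_zero]
      intro h
      exact hw1 (inv_eq_one.mp h.symm)
    have h4 : 1 - w⁻¹ = -(1 - w) * w⁻¹ := by field_simp; ring
    rw [h4]
    field_simp
    ring

theorem Series_Pk_four_neg [NeZero M] (z : R) (hz : z ^ M = 1) (d : ZMod M) :
    Pk 4 (z ^ (-d).val) = Pk 4 (z ^ d.val) := by
  have hz0 : z ≠ 0 := by
    rintro rfl
    rw [zero_pow (NeZero.ne M)] at hz
    exact zero_ne_one hz
  have h1 : z ^ (-d).val * z ^ d.val = 1 := by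
    rw [← pow_add]
    rcases eq_or_ne d 0 with rfl | hd
    · simp
    · have : NeZero d := ⟨hd⟩
      rw [ZMod.val_neg_of_ne_zero, Nat.sub_add_cancel (ZMod.val_le d), hz]
  rw [eq_inv_of_mul_eq_one_left h1]
  exact Series_Pk_four_inv _ (pow_ne_zero _ hz0)

/-- `nc z 4 (-v) = nc z 4 v` if `z^M = 1` (for `n = 0`: `P_4(w⁻¹) = P_4(w)`; `z ^ (-d).val = (z ^ d.val)⁻¹`). -/
theorem gs_four_neg [NeZero M] (z : R) (hz : z ^ M = 1) (v : Fin 2 → ZMod M) :
    gs z 4 (-v) = gs z 4 v := by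
  ext n
  rw [coeff_gs, coeff_gs]
  unfold nc
  split_ifs with h1 h2 h3 h3
  · exact Series_Pk_four_neg z hz (v 1)
  · exact absurd (neg_eq_zero.mp h2) h3
  · exact absurd (by rw [Pi.neg_apply, h3, neg_zero]) h2
  · rfl
  · unfold coef
    refine Finset.sum_congr rfl fun m _ => ?_
    have h4 : ((-1 : R)) ^ 4 = 1 := by norm_num
    simp only [Pi.neg_apply, neg_neg, h4, one_mul]
    rw [add_comm]

theorem xs_neg [NeZero M] (z : R) (hz : z ^ M = 1) (v : Fin 2 → ZMod M) : xs z (-v) = xs z v := by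
  unfold xs
  rw [gs_four_neg z hz]

/-- `xs z v = xs z v' ↔ gs z 4 v = gs z 4 v'`. -/
theorem xs_eq_iff [NeZero M] (z : R) (v v' : Fin 2 → ZMod M) :
    xs z v = xs z v' ↔ gs z 4 v = gs z 4 v' := by
  have h0 : qExpand R M (wfac R) ≠ 0 := by
    rw [Ne, map_eq_zero_iff _ (qExpand_injective M)]
    exact wfac_ne_zero
  unfold xs
  constructor
  · intro h
    exact HahnSeries.ofPowerSeries_injective (mul_right_cancel₀ h0 h)
  · intro h
    rw [h]

end

end Fermat.Agent.S48.EIS
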