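import Fermat.Agent.S48.EIS.Basic

/-!
# S48 / EIS : vectors of exact order `M` in `(ℤ/M)²` and the action of `SL₂(ℤ)`
TASK S48/EIS-Prim.
-/

set_option autoImplicit false
set_option linter.unusedSectionVars false

open Matrix CongruenceSubgroup
open scoped MatrixGroups

namespace Fermat.Agent.S48.EIS

noncomputable section

variable {M : ℕ} [NeZero M]

theorem vecMul_one' (v : Fin 2 → ZMod M) : (v ᵥ* (1 : SL(2, ℤ)) : Fin 2 → ZMod M) = v := by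
  have h : (SpecialLinearGroup.map (Int.castRingHom (ZMod M)) (1 : SL(2, ℤ))).val = 1 := by
    rw [map_one]; rfl
  exact (congrArg (fun A => v ᵥ* A) h).trans (vecMul_one v)

theorem vecMul_mul' (v : Fin 2 → ZMod M) (γ δ : SL(2, ℤ)) :
    (v ᵥ* (γ * δ : SL(2, ℤ)) : Fin 2 → ZMod M) = ((v ᵥ* γ : Fin 2 → ZMod M) ᵥ* δ) := by
  have h : (SpecialLinearGroup.map (Int.castRingHom (ZMod M)) (γ * δ)).val
      = (SpecialLinearGroup.map (Int.castRingHom (ZMod M)) γ).val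
        * (SpecialLinearGroup.map (Int.castRingHom (ZMod M)) δ).val := by
    rw [map_mul]; rfl
  exact (congrArg (fun A => v ᵥ* A) h).trans (vecMul_vecMul v _ _).symm

theorem neg_vecMul' (v : Fin 2 → ZMod M) (γ : SL(2, ℤ)) :
    ((-v) ᵥ* γ : Fin 2 → ZMod M) = -(v ᵥ* γ : Fin 2 → ZMod M) := by
  rw [neg_vecMul]

/-- `v ↦ v γ` as a permutation of `(ℤ/M)²`. -/
def vecPerm (γ : SL(2, ℤ)) : Equiv.Perm (Fin 2 → ZMod M) where
  toFun v := v ᵥ* γ
  invFun v := v ᵥ* (γ⁻¹ : SL(2, ℤ))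
  left_inv v := by
    show ((v ᵥ* γ : Fin 2 → ZMod M) ᵥ* (γ⁻¹ : SL(2, ℤ)) : Fin 2 → ZMod M) = v
    rw [← vecMul_mul', mul_inv_cancel, vecMul_one']
  right_inv v := by
    show ((v ᵥ* (γ⁻¹ : SL(2, ℤ)) : Fin 2 → ZMod M) ᵥ* γ : Fin 2 → ZMod M) = v
    rw [← vecMul_mul', inv_mul_cancel, vecMul_one']

theorem addOrderOf_vecMul (v : Fin 2 → ZMod M) (γ : SL(2, ℤ)) :
    addOrderOf (v ᵥ* γ : Fin 2 → ZMod M) = addOrderOf v := by
  let f : (Fin 2 → ZMod M) →+ (Fin 2 → ZMod M) :=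
    { toFun := fun v => v ᵥ* γ
      map_zero' := zero_vecMul _
      map_add' := fun a b => add_vecMul _ _ _ }
  exact addOrderOf_injective f (vecPerm (M := M) γ).injective v

theorem addOrderOf_zero_unit (a : (ZMod M)ˣ) :
    addOrderOf (![0, (a : ZMod M)] : Fin 2 → ZMod M) = M := by
  have key : ∀ n : ℕ, n • (![0, (a : ZMod M)] : Fin 2 → ZMod M) = 0 ↔ M ∣ n := by
    intro n
    rw [← ZMod.natCast_eq_zero_iff]
    constructor
    · intro h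
      have h1 := congrFun h 1
      simp only [Pi.smul_apply, cons_val_one, cons_val_fin_one, nsmul_eq_mul, Pi.zero_apply] at h1
      exact (Units.mul_left_eq_zero a).mp h1
    · intro h
      funext i
      fin_cases i
      · simp
      · simp [h]
  apply Nat.dvd_antisymm
  · rw [addOrderOf_dvd_iff_nsmul_eq_zero, key]
  · rw [← key, ← addOrderOf_dvd_iff_nsmul_eq_zero]

theorem addOrderOf_neg' (v : Fin 2 → ZMod M) : addOrderOf (-v) = addOrderOf v := by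
  exact addOrderOf_neg v

theorem ne_zero_of_addOrderOf (hM : 1 < M) (v : Fin 2 → ZMod M) (hv : addOrderOf v = M) : v ≠ 0 := by
  rintro rfl
  rw [addOrderOf_zero] at hv
  omega

/-- the bottom row. -/
theorem zero_one_vecMul (γ : SL(2, ℤ)) :
    ((![0, 1] : Fin 2 → ZMod M) ᵥ* γ : Fin 2 → ZMod M) =
      ![((γ 1 0 : ℤ) : ZMod M), ((γ 1 1 : ℤ) : ZMod M)] := by
  funext i
  fin_cases i <;>
    simp [vecMul, dotProduct, Fin.sum_univ_two]

/-- the stabiliser of `(0,1)` is `Γ₁(M)` (`Gamma1_mem`; `γ₀₀ ≡ 1` follows from `det = 1`). -/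
theorem zero_one_vecMul_eq_iff (γ : SL(2, ℤ)) :
    ((![0, 1] : Fin 2 → ZMod M) ᵥ* γ : Fin 2 → ZMod M) = ![0, 1] ↔ γ ∈ Gamma1 M := by
  rw [zero_one_vecMul, Gamma1_mem]
  constructor
  · intro h
    have h0 : ((γ 1 0 : ℤ) : ZMod M) = 0 := congrFun h 0
    have h1 : ((γ 1 1 : ℤ) : ZMod M) = 1 := congrFun h 1
    refine ⟨?_, h1, h0⟩
    have hdet := γ.det_coe
    rw [det_fin_two] at hdet
    have := congrArg (fun x : ℤ => (x : ZMod M)) hdet
    simp only [Int.cast_sub, Int.cast_mul, Int.cast_one, h0, h1, mul_one, mul_zero, sub_zero] at this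
    exact this
  · rintro ⟨-, h1, h0⟩
    rw [h0, h1]

theorem zero_one_vecMul_eq_neg_iff (γ : SL(2, ℤ)) :
    ((![0, 1] : Fin 2 → ZMod M) ᵥ* γ : Fin 2 → ZMod M) = -![0, 1] ↔ -γ ∈ Gamma1 M := by
  rw [← zero_one_vecMul_eq_iff, zero_one_vecMul, zero_one_vecMul, ← neg_eq_iff_eq_neg]
  have e : -(![((γ 1 0 : ℤ) : ZMod M), ((γ 1 1 : ℤ) : ZMod M)] : Fin 2 → ZMod M)
      = ![(((-γ) 1 0 : ℤ) : ZMod M), (((-γ) 1 1 : ℤ) : ZMod M)] := by
    funext i
    fin_cases i <;> simp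
  rw [e]

/-- `(0,1) γ = ± (0,1) δ ↔ γ δ⁻¹ ∈ ± Γ₁(M)`. -/
theorem zero_one_vecMul_eq_or_neg_iff (γ δ : SL(2, ℤ)) :
    (((![0, 1] : Fin 2 → ZMod M) ᵥ* γ : Fin 2 → ZMod M) = (![0, 1] : Fin 2 → ZMod M) ᵥ* δ ∨
      ((![0, 1] : Fin 2 → ZMod M) ᵥ* γ : Fin 2 → ZMod M) = -((![0, 1] : Fin 2 → ZMod M) ᵥ* δ)) ↔
      (γ * δ⁻¹ ∈ Gamma1 M ∨ -(γ * δ⁻¹) ∈ Gamma1 M) := by
  rw [← zero_one_vecMul_eq_iff, ← zero_one_vecMul_eq_neg_iff, vecMul_mul']
  have hinj := (vecPerm (M := M) δ).injective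
  have hδ : ∀ w : Fin 2 → ZMod M,
      ((w ᵥ* (δ⁻¹ : SL(2, ℤ)) : Fin 2 → ZMod M) ᵥ* δ : Fin 2 → ZMod M) = w :=
    (vecPerm (M := M) δ).right_inv
  have key : ∀ w u : Fin 2 → ZMod M,
      (w ᵥ* (δ⁻¹ : SL(2, ℤ)) : Fin 2 → ZMod M) = u ↔ w = (u ᵥ* δ : Fin 2 → ZMod M) := by
    intro w u
    constructor
    · intro h
      rw [← h, hδ]
    · intro h
      apply hinj
      show ((w ᵥ* (δ⁻¹ : SL(2, ℤ)) : Fin 2 → ZMod M) ᵥ* δ : Fin 2 → ZMod M) = u ᵥ* δ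
      rw [hδ, h]
  rw [key, key, neg_vecMul']

/-- **transitivity**: every vector of exact order `M` is a bottom row mod `M`.
`v = (c, d)`, lifts `c̃ = c.val`, `d̃ = d.val`; `gcd(c̃, d̃, M) = 1`.  If `c̃ = 0` replace it by `M`.  With
`t = ∏ {p prime, p ∣ c̃, p ∤ d̃}`, `gcd(c̃, d̃ + M t) = 1`; complete the row `(c̃, d̃ + M t)` to a matrix of determinant `1`
(`Int.isCoprime_iff_gcd_eq_one`, Bézout). -/
theorem exists_zero_one_vecMul_eq (v : Fin 2 → ZMod M) (hv : addOrderOf v = M) :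
    ∃ γ : SL(2, ℤ), ((![0, 1] : Fin 2 → ZMod M) ᵥ* γ : Fin 2 → ZMod M) = v := by
  -- lifts
  obtain ⟨c, hc0, hc⟩ : ∃ c : ℕ, c ≠ 0 ∧ (c : ZMod M) = v 0 := by
    by_cases h0 : (v 0).val = 0
    · refine ⟨M, NeZero.ne M, ?_⟩
      rw [ZMod.natCast_self, eq_comm, ← ZMod.val_eq_zero]
      exact h0
    · exact ⟨(v 0).val, h0, ZMod.natCast_zmod_val _⟩
  set d : ℕ := (v 1).val with hd
  have hdv : (d : ZMod M) = v 1 := ZMod.natCast_zmod_val _
  -- `gcd (d, c, M) = 1`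
  have hcop : Nat.Coprime d (Nat.gcd c M) := by
    set e := Nat.gcd d (Nat.gcd c M) with he
    have heM : e ∣ M := (Nat.gcd_dvd_right _ _).trans (Nat.gcd_dvd_right _ _)
    have hec : e ∣ c := (Nat.gcd_dvd_right _ _).trans (Nat.gcd_dvd_left _ _)
    have hed : e ∣ d := Nat.gcd_dvd_left _ _
    obtain ⟨M', hM'⟩ := heM
    obtain ⟨c', hc'⟩ := hec
    obtain ⟨d', hd'⟩ := hed
    have hz : M' • v = 0 := by
      funext i
      fin_cases i
      · show M' • v 0 = 0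
        rw [← hc, nsmul_eq_mul, ← Nat.cast_mul, ZMod.natCast_eq_zero_iff, hc', hM']
        exact ⟨c', by ring⟩
      · show M' • v 1 = 0
        rw [← hdv, nsmul_eq_mul, ← Nat.cast_mul, ZMod.natCast_eq_zero_iff, hd', hM']
        exact ⟨d', by ring⟩
    rw [← addOrderOf_dvd_iff_nsmul_eq_zero, hv] at hz
    have hM'0 : M' ≠ 0 := by
      rintro rfl
      exact NeZero.ne M (by rw [hM', mul_zero])
    have : e * M' ∣ 1 * M' := by rw [one_mul, ← hM']; exact hz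
    exact Nat.dvd_one.mp (Nat.dvd_of_mul_dvd_mul_right (Nat.pos_of_ne_zero hM'0) this)
  -- a unit mod `c` lifting `d mod gcd (c, M)`
  have : NeZero c := ⟨hc0⟩
  obtain ⟨u, hu⟩ := ZMod.unitsMap_surjective (Nat.gcd_dvd_left c M) (ZMod.unitOfCoprime d hcop)
  have hu1 : Nat.Coprime (u : ZMod c).val c := ZMod.val_coe_unit_coprime u
  have hu2 : (u : ZMod c).val ≡ d [MOD Nat.gcd c M] := by
    have h1 := congrArg (fun x : (ZMod (Nat.gcd c M))ˣ => (x : ZMod (Nat.gcd c M))) hu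
    simp only [ZMod.unitsMap_val, ZMod.coe_unitOfCoprime] at h1
    rw [← ZMod.natCast_eq_natCast_iff, ← h1, ZMod.natCast_val]
  obtain ⟨k, hk1, hk2⟩ := Nat.chineseRemainder' hu2
  have hkc : Nat.Coprime k c := by
    have := hk1.gcd_eq
    rw [Nat.Coprime, this]
    exact hu1
  have hkv : (k : ZMod M) = v 1 := by
    rw [← hdv]
    exact (ZMod.natCast_eq_natCast_iff _ _ _).mpr hk2
  -- Bézout
  have hco : IsCoprime (k : ℤ) (c : ℤ) := Nat.isCoprime_iff_coprime.mpr hkc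
  obtain ⟨a, b, hab⟩ := hco
  have hdet : (!![a, -b; (c : ℤ), (k : ℤ)]).det = 1 := by
    rw [det_fin_two_of]
    linarith
  let γ : SL(2, ℤ) := ⟨!![a, -b; (c : ℤ), (k : ℤ)], hdet⟩
  refine ⟨γ, ?_⟩
  rw [zero_one_vecMul γ]
  have h10 : γ 1 0 = (c : ℤ) := rfl
  have h11 : γ 1 1 = (k : ℤ) := rfl
  rw [h10, h11]
  funext i
  fin_cases i
  · simpa using hc
  · simpa using hkv

open Classical in
/-- the vectors of exact order `M`. -/
def Prim (M : ℕ) [NeZero M] : Finset (Fin 2 → ZMod M) := Finset.univ.filter fun v => addOrderOf v = M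

theorem mem_Prim (v : Fin 2 → ZMod M) : v ∈ Prim M ↔ addOrderOf v = M := by
  simp [Prim]

theorem vecMul_mem_Prim (v : Fin 2 → ZMod M) (γ : SL(2, ℤ)) :
    (v ᵥ* γ : Fin 2 → ZMod M) ∈ Prim M ↔ v ∈ Prim M := by
  rw [mem_Prim, mem_Prim, addOrderOf_vecMul]

end

end Fermat.Agent.S48.EIS
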