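import Fermat.Agent.S48.EIS.Sep

/-!
# S48 / EIS : integrality of the `x_v` and reduction mod `p ∤ M`
TASK S48/EIS-Integral.

`A` a local ring (e.g. a valuation subring of `ℚ̄` or of a number field over `p ∤ M`), `ι : A → K` its fraction field (any field),
`f : A → κ` its residue field (any field; "local" is expressed by `hloc`), `z ∈ A` with `f z` a primitive `M`-th root of unity.
Then `x_v ∈ A((x))`, its reduction is the `x_v` of `κ`, and so (by `Sep.lean` over `κ`)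
`x_v ≡ x_{v'} (mod 𝔪) ⇒ v' = ± v ⇒ x_v = x_{v'}`.
-/

set_option autoImplicit false

open ModularCurve

namespace Fermat.Agent.S48.EIS

noncomputable section

variable {M : ℕ} [NeZero M] {A K κ : Type*} [CommRing A] [Field K] [Field κ]

omit [NeZero M] in
/-- `P_k(1) = 0` (division by zero). -/
theorem Integral_Pk_one {R : Type*} [Field R] (k : ℕ) : Pk k (1 : R) = 0 := by
  unfold Pk
  split_ifs <;> simp

/-- the image of the inverse of a unit. -/
theorem Integral_map_inv {R : Type*} [Field R] (g : A →+* R) (u : Aˣ) :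
    g ((u⁻¹ : Aˣ) : A) = (g (u : A))⁻¹ := by
  have h : g (u : A) * g ((u⁻¹ : Aˣ) : A) = 1 := by
    rw [← map_mul, Units.mul_inv, map_one]
  exact eq_inv_of_mul_eq_one_right h

/-- `P_k(w)` for `1 - w` a unit. -/
theorem Integral_map_Pk {R : Type*} [Field R] (g : A →+* R) (k : ℕ) (w : A) (u : Aˣ)
    (hu : (u : A) = 1 - w) :
    g (if k = 3 then w * (1 + w) * ((u⁻¹ : Aˣ) : A) ^ 3
      else if k = 4 then w * (1 + 4 * w + w ^ 2) * ((u⁻¹ : Aˣ) : A) ^ 4 else 0) = Pk k (g w) := by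
  have h4 : g 4 = 4 := map_ofNat g 4
  have hi : g ((u⁻¹ : Aˣ) : A) = (1 - g w)⁻¹ := by
    rw [Integral_map_inv, hu, map_sub, map_one]
  unfold Pk
  split_ifs
  · rw [map_mul, map_mul, map_add, map_one, map_pow, hi, inv_pow, div_eq_mul_inv]
  · rw [map_mul, map_mul, map_add, map_add, map_one, map_mul, map_pow, map_pow, h4, hi, inv_pow,
      div_eq_mul_inv]
  · exact map_zero g

/-- lift of `P_k(z^d)`. -/
theorem Integral_exists_Pk_lift (ι : A →+* K) (f : A →+* κ) (hloc : ∀ a : A, f a ≠ 0 → IsUnit a)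
    (z : A) (hz : IsPrimitiveRoot (f z) M) (k : ℕ) (d : ZMod M) :
    ∃ y : A, ι y = Pk k (ι z ^ d.val) ∧ f y = Pk k (f z ^ d.val) := by
  rcases Nat.eq_zero_or_pos d.val with hd | hd
  · refine ⟨0, ?_, ?_⟩
    · rw [hd, pow_zero, Integral_Pk_one, map_zero]
    · rw [hd, pow_zero, Integral_Pk_one, map_zero]
  · have h1 : f z ^ d.val ≠ 1 := hz.pow_ne_one_of_pos_of_lt hd.ne' (ZMod.val_lt d)
    have h2 : f (1 - z ^ d.val) ≠ 0 := by
      rw [map_sub, map_one, map_pow]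
      exact sub_ne_zero.mpr h1.symm
    obtain ⟨u, hu⟩ := hloc _ h2
    have e1 := Integral_map_Pk ι k (z ^ d.val) u hu
    have e2 := Integral_map_Pk f k (z ^ d.val) u hu
    rw [map_pow] at e1 e2
    exact ⟨_, e1, e2⟩

/-- `n ≥ 1`: `y = coef z k v n` (`map_coef`).  `n = 0`, `v 0 = 0`: `w = z^d`; if `d = 0` both sides are `0` (division by `0`),
otherwise `f (1 - w) ≠ 0`, `1 - w` is a unit `u⁻¹` of `A`, `y = w (1 + w) u³` resp. `w (1 + 4w + w²) u⁴`. -/
theorem exists_nc_lift (ι : A →+* K) (f : A →+* κ) (hloc : ∀ a : A, f a ≠ 0 → IsUnit a) (z : A)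
    (hz : IsPrimitiveRoot (f z) M) (hz' : z ^ M = 1) (k : ℕ) (v : Fin 2 → ZMod M) (n : ℕ) :
    ∃ y : A, ι y = nc (ι z) k v n ∧ f y = nc (f z) k v n := by
  unfold nc
  by_cases hn : n = 0
  · rw [if_pos hn, if_pos hn]
    by_cases hv : v 0 = 0
    · rw [if_pos hv, if_pos hv]
      exact Integral_exists_Pk_lift ι f hloc z hz k (v 1)
    · rw [if_neg hv, if_neg hv]
      exact ⟨0, map_zero _, map_zero _⟩
  · rw [if_neg hn, if_neg hn]
    exact ⟨coef z k v n, map_coef ι z k v n, map_coef f z k v n⟩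

theorem Integral_exists_nc₀_lift (ι : A →+* K) (f : A →+* κ) (hloc : ∀ a : A, f a ≠ 0 → IsUnit a)
    (z : A) (hz : IsPrimitiveRoot (f z) M) (k : ℕ) (a : ZMod M) (n : ℕ) :
    ∃ y : A, ι y = nc₀ (ι z) k a n ∧ f y = nc₀ (f z) k a n := by
  unfold nc₀
  by_cases hn : n = 0
  · rw [if_pos hn, if_pos hn]
    exact Integral_exists_Pk_lift ι f hloc z hz k a
  · rw [if_neg hn, if_neg hn]
    exact ⟨coef₀ z k a n, map_coef₀ ι z k a n, map_coef₀ f z k a n⟩

theorem exists_gs_lift (ι : A →+* K) (f : A →+* κ) (hloc : ∀ a : A, f a ≠ 0 → IsUnit a) (z : A)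
    (hz : IsPrimitiveRoot (f z) M) (hz' : z ^ M = 1) (k : ℕ) (v : Fin 2 → ZMod M) :
    ∃ Y : PowerSeries A, Y.map ι = gs (ι z) k v ∧ Y.map f = gs (f z) k v := by
  choose y hy1 hy2 using exists_nc_lift ι f hloc z hz hz' k v
  refine ⟨PowerSeries.mk y, ?_, ?_⟩
  · ext n
    rw [PowerSeries.coeff_map, PowerSeries.coeff_mk, coeff_gs, hy1]
  · ext n
    rw [PowerSeries.coeff_map, PowerSeries.coeff_mk, coeff_gs, hy2]

theorem Integral_exists_gs₀_lift (ι : A →+* K) (f : A →+* κ)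
    (hloc : ∀ a : A, f a ≠ 0 → IsUnit a) (z : A)
    (hz : IsPrimitiveRoot (f z) M) (k : ℕ) (a : ZMod M) :
    ∃ Y : PowerSeries A, Y.map ι = gs₀ (ι z) k a ∧ Y.map f = gs₀ (f z) k a := by
  choose y hy1 hy2 using Integral_exists_nc₀_lift ι f hloc z hz k a
  refine ⟨PowerSeries.mk y, ?_, ?_⟩
  · ext n
    rw [PowerSeries.coeff_map, PowerSeries.coeff_mk, coeff_gs₀, hy1]
  · ext n
    rw [PowerSeries.coeff_map, PowerSeries.coeff_mk, coeff_gs₀, hy2]

/-- **`x_v ∈ A((x))` and its reduction.** -/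
theorem exists_xs_lift (ι : A →+* K) (f : A →+* κ) (hloc : ∀ a : A, f a ≠ 0 → IsUnit a) (z : A)
    (hz : IsPrimitiveRoot (f z) M) (hz' : z ^ M = 1) (v : Fin 2 → ZMod M) :
    ∃ Y : LaurentSeries A, coeffMap ι Y = xs (ι z) v ∧ coeffMap f Y = xs (f z) v := by
  obtain ⟨Y, h1, h2⟩ := exists_gs_lift ι f hloc z hz hz' 4 v
  refine ⟨HahnSeries.ofPowerSeries ℤ A Y * qExpand A M (wfac A), ?_, ?_⟩
  · rw [map_mul, coeffMap_ofPowerSeries, coeffMap_qExpand, coeffMap_wfac, h1, xs]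
  · rw [map_mul, coeffMap_ofPowerSeries, coeffMap_qExpand, coeffMap_wfac, h2, xs]

theorem exists_xs₀_lift (ι : A →+* K) (f : A →+* κ) (hloc : ∀ a : A, f a ≠ 0 → IsUnit a) (z : A)
    (hz : IsPrimitiveRoot (f z) M) (hz' : z ^ M = 1) (a : ZMod M) :
    ∃ Y : LaurentSeries A, coeffMap ι Y = xs₀ (ι z) a ∧ coeffMap f Y = xs₀ (f z) a := by
  obtain ⟨Y, h1, h2⟩ := Integral_exists_gs₀_lift ι f hloc z hz 4 a
  refine ⟨HahnSeries.ofPowerSeries ℤ A Y * wfac A, ?_, ?_⟩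
  · rw [map_mul, coeffMap_ofPowerSeries, coeffMap_wfac, h1, xs₀]
  · rw [map_mul, coeffMap_ofPowerSeries, coeffMap_wfac, h2, xs₀]

/-- **equal reductions `⇒` equal** (wish (iii) of C1). -/
theorem xs_eq_of_reduction_eq (hM : 5 ≤ M) (ι : A →+* K) (f : A →+* κ) (z : A)
    (hz : IsPrimitiveRoot (f z) M) (hz' : z ^ M = 1) (v v' : Fin 2 → ZMod M)
    (hv : addOrderOf v = M) (hv' : addOrderOf v' = M) (h : xs (f z) v = xs (f z) v') :
    xs (ι z) v = xs (ι z) v' := by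
  rcases (xs_eq_iff_eq_or_neg hM hz v v' hv hv').mp h with rfl | rfl
  · rfl
  · exact (xs_neg (ι z) (by rw [← map_pow, hz', map_one]) v).symm

end

end Fermat.Agent.S48.EIS
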