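import Fermat.Agent.S48.EIS.Gc

/-!
# S48 / EIS : first properties of `G_{k,v}` (slash action, holomorphy, boundedness, parity)
TASK S48/EIS-Basic.   Everything from `Gc.lean` (black box) with `c = ind M v`.
-/

set_option autoImplicit false

open UpperHalfPlane hiding I
open EisensteinSeries Matrix Filter Topology
open scoped MatrixGroups Manifold ModularForm

namespace Fermat.Agent.S48.EIS

noncomputable section

variable {M : ℕ} {k : ℕ}

theorem norm_ind_le (v : Fin 2 → ZMod M) (w : Fin 2 → ℤ) : ‖ind M v w‖ ≤ 1 := by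
  unfold ind
  split_ifs <;> simp

/-- `redv (w γ) = (redv w) γ` (`RingHom.map_vecMul`, as in Mathlib `vecMul_SL2_mem_gammaSet`). -/
theorem redv_vecMul (w : Fin 2 → ℤ) (γ : SL(2, ℤ)) : redv M (w ᵥ* γ) = redv M w ᵥ* γ := by
  have := RingHom.map_vecMul (m := Fin 2) (n := Fin 2) (Int.castRingHom (ZMod M)) γ w
  simp only [eq_intCast, Int.coe_castRingHom] at this
  funext i
  rw [redv, this]
  rfl

theorem Basic_vecMul_cancel (u : Fin 2 → ZMod M) (A B : SL(2, ZMod M)) (h : A * B = 1) :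
    (u ᵥ* (A : Matrix (Fin 2) (Fin 2) (ZMod M))) ᵥ* (B : Matrix (Fin 2) (Fin 2) (ZMod M)) = u := by
  have h1 : (A : Matrix (Fin 2) (Fin 2) (ZMod M)) * (B : Matrix (Fin 2) (Fin 2) (ZMod M)) = 1 :=
    congrArg Subtype.val h
  rw [vecMul_vecMul, h1, vecMul_one]

/-- `(u γ⁻¹) γ = u`. -/
theorem Basic_vecMul_inv_vecMul (u : Fin 2 → ZMod M) (γ : SL(2, ℤ)) :
    (u ᵥ* (↑(γ⁻¹) : Matrix (Fin 2) (Fin 2) (ZMod M))) ᵥ*
      (γ : Matrix (Fin 2) (Fin 2) (ZMod M)) = u :=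
  Basic_vecMul_cancel u (SpecialLinearGroup.map (Int.castRingHom (ZMod M)) γ⁻¹)
    (SpecialLinearGroup.map (Int.castRingHom (ZMod M)) γ)
    (by rw [← map_mul, inv_mul_cancel, map_one])

/-- `(u γ) γ⁻¹ = u`. -/
theorem Basic_vecMul_vecMul_inv (u : Fin 2 → ZMod M) (γ : SL(2, ℤ)) :
    (u ᵥ* (γ : Matrix (Fin 2) (Fin 2) (ZMod M))) ᵥ*
      (↑(γ⁻¹) : Matrix (Fin 2) (Fin 2) (ZMod M)) = u :=
  Basic_vecMul_cancel u (SpecialLinearGroup.map (Int.castRingHom (ZMod M)) γ)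
    (SpecialLinearGroup.map (Int.castRingHom (ZMod M)) γ⁻¹)
    (by rw [← map_mul, mul_inv_cancel, map_one])

theorem Basic_ind_vecMul_inv (v : Fin 2 → ZMod M) (γ : SL(2, ℤ)) (w : Fin 2 → ℤ) :
    ind M v (w ᵥ* ↑(γ⁻¹)) = ind M (v ᵥ* γ) w := by
  have hiff : redv M (w ᵥ* ↑(γ⁻¹)) = v ↔ redv M w = v ᵥ* γ := by
    rw [redv_vecMul]
    constructor
    · intro h
      rw [← h, Basic_vecMul_inv_vecMul]
    · intro h
      rw [h, Basic_vecMul_vecMul_inv]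
  unfold ind
  by_cases h : redv M w = v ᵥ* γ
  · rw [if_pos h, if_pos (hiff.mpr h)]
  · rw [if_neg h, if_neg (fun h' => h (hiff.mp h'))]

/-- `G_{k,v} | γ = G_{k, vγ}`. -/
theorem G_slash (k : ℕ) (v : Fin 2 → ZMod M) (γ : SL(2, ℤ)) :
    G M k v ∣[(k : ℤ)] γ = G M k (v ᵥ* γ) := by
  unfold G
  rw [Gc_slash]
  congr 1
  funext w
  exact Basic_ind_vecMul_inv v γ w

theorem G_mdiff (hk : 3 ≤ k) (v : Fin 2 → ZMod M) : MDiff (G M k v) :=
  Gc_mdiff hk (norm_ind_le v)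

theorem G_isBoundedAtImInfty (hk : 3 ≤ k) (v : Fin 2 → ZMod M) : IsBoundedAtImInfty (G M k v) :=
  Gc_isBoundedAtImInfty hk (norm_ind_le v)

/-- `G_{k,-v} = (-1)^k G_{k,v}` (reindex `w ↦ -w`). -/
theorem G_neg (k : ℕ) (v : Fin 2 → ZMod M) (z : ℍ) : G M k (-v) z = (-1) ^ k * G M k v z := by
  unfold G Gc
  rw [← tsum_mul_left, ← (Equiv.neg (Fin 2 → ℤ)).tsum_eq]
  refine tsum_congr fun w => ?_
  have h1 : ind M (-v) (-w) = ind M v w := by
    have hiff : redv M (-w) = -v ↔ redv M w = v := by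
      have : redv M (-w) = - redv M w := by
        funext i
        simp [redv]
      rw [this, neg_inj]
    unfold ind
    by_cases h : redv M w = v
    · rw [if_pos h, if_pos (hiff.mpr h)]
    · rw [if_neg h, if_neg (fun h' => h (hiff.mp h'))]
  have h2 : eisSummand k (-w) z = (-1) ^ k * eisSummand k w z := by
    unfold eisSummand
    have h3 : (((-w) 0 : ℤ) : ℂ) * (z : ℂ) + (((-w) 1 : ℤ) : ℂ)
        = (-1) * (((w 0 : ℤ) : ℂ) * (z : ℂ) + ((w 1 : ℤ) : ℂ)) := by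
      simp only [Pi.neg_apply, Int.cast_neg]
      ring
    rw [h3, mul_zpow]
    congr 1
    rw [_root_.zpow_neg, zpow_natCast, ← inv_pow]
    norm_num
  show ind M (-v) (-w) * eisSummand k (-w) z = _
  rw [h1, h2]
  ring

/-- the bottom row of `γ ∈ Γ₀(M)`: `(0,a) γ = (0, a d)`. -/
theorem vecMul_Gamma0 (a : ZMod M) (γ : SL(2, ℤ)) (hγ : γ ∈ CongruenceSubgroup.Gamma0 M) :
    (![0, a] : Fin 2 → ZMod M) ᵥ* γ = ![0, a * ((γ 1 1 : ℤ) : ZMod M)] := by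
  rw [CongruenceSubgroup.Gamma0_mem] at hγ
  funext i
  fin_cases i
  · simp [Matrix.vecMul, dotProduct, Fin.sum_univ_two, hγ]
  · simp [Matrix.vecMul, dotProduct, Fin.sum_univ_two]

theorem vecMul_Gamma1 (a : ZMod M) (γ : SL(2, ℤ)) (hγ : γ ∈ CongruenceSubgroup.Gamma1 M) :
    (![0, a] : Fin 2 → ZMod M) ᵥ* γ = ![0, a] := by
  rw [vecMul_Gamma0 a γ (CongruenceSubgroup.Gamma1_in_Gamma0 M hγ),
    ((CongruenceSubgroup.Gamma1_mem M γ).mp hγ).2.1, mul_one]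

/-- `G_{k,(0,a)}` as a modular form on `Γ₁(M)` (as in `ES/An/MkMF.lean`, `isMF_of`). -/
theorem exists_modularForm [NeZero M] (hk : 3 ≤ k) (a : ZMod M) :
    ∃ f : ModularForm (CongruenceSubgroup.Gamma1 M) k, (f : ℍ → ℂ) = G M k ![0, a] := by
  refine ⟨{ toFun := G M k ![0, a], slash_action_eq' := ?_, holo' := G_mdiff hk _,
            bdd_at_cusps' := ?_ }, rfl⟩
  · rintro _ ⟨γ, hγ, rfl⟩
    have h := G_slash k (![0, a] : Fin 2 → ZMod M) γ
    rw [vecMul_Gamma1 a γ hγ] at h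
    exact h
  · intro c hc
    rw [Subgroup.IsArithmetic.isCusp_iff_isCusp_SL2Z] at hc
    rw [OnePoint.isBoundedAt_iff_forall_SL2Z hc]
    intro γ _
    rw [G_slash]
    exact G_isBoundedAtImInfty hk _

end

end Fermat.Agent.S48.EIS
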