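import Fermat.Agent.S48.EIS.Defs

/-!
# S48 / EIS : auxiliary file for the task EIS-ConstA
power sums `∑ m² w^m`, `∑ m³ w^m` and the Lipschitz formula at a real non-integral point.
-/

set_option autoImplicit false

open UpperHalfPlane hiding I
open EisensteinSeries Complex Filter Topology Function
open scoped Real Nat

namespace Fermat.Agent.S48.EIS

noncomputable section

theorem ConstA_choose_one (n : ℕ) : (((n + 1).choose 1 : ℕ) : ℂ) = (n : ℂ) + 1 := by
  simp

theorem ConstA_choose_two (n : ℕ) :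
    (((n + 2).choose 2 : ℕ) : ℂ) = ((n : ℂ) + 1) * ((n : ℂ) + 2) / 2 := by
  induction n with
  | zero => simp
  | succ n ih =>
    have h : (n + 1 + 2).choose 2 = (n + 2).choose 1 + (n + 2).choose 2 := by
      rw [show n + 1 + 2 = (n + 2) + 1 by ring, Nat.choose_succ_succ' (n + 2) 1]
    rw [h]
    push_cast
    rw [ih]
    simp only [Nat.choose_one_right]
    push_cast
    ring

theorem ConstA_choose_three (n : ℕ) :
    (((n + 3).choose 3 : ℕ) : ℂ) = ((n : ℂ) + 1) * ((n : ℂ) + 2) * ((n : ℂ) + 3) / 6 := by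
  induction n with
  | zero => norm_num
  | succ n ih =>
    have h : (n + 1 + 3).choose 3 = (n + 1 + 2).choose 2 + (n + 3).choose 3 := by
      rw [show n + 1 + 3 = (n + 3) + 1 by ring, Nat.choose_succ_succ' (n + 3) 2]
    rw [h]
    push_cast
    rw [ih, ConstA_choose_two (n + 1)]
    push_cast
    ring

theorem ConstA_one_sub_ne {w : ℂ} (hw : ‖w‖ < 1) : (1 : ℂ) - w ≠ 0 := by
  intro h
  have : w = 1 := by linear_combination -h
  rw [this] at hw
  simp at hw

theorem ConstA_tsum_sq_mul_pow {w : ℂ} (hw : ‖w‖ < 1) :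
    ∑' m : ℕ, (m : ℂ) ^ 2 * w ^ m = w * (1 + w) / (1 - w) ^ 3 := by
  have h0 := hasSum_choose_mul_geometric_of_norm_lt_one 0 hw
  have h1 := hasSum_choose_mul_geometric_of_norm_lt_one 1 hw
  have h2 := hasSum_choose_mul_geometric_of_norm_lt_one 2 hw
  have hne := ConstA_one_sub_ne hw
  have H := ((h2.mul_left 2).sub (h1.mul_left 3)).add h0
  have hfun : (fun m : ℕ => (m : ℂ) ^ 2 * w ^ m) =
      fun n : ℕ => 2 * (((n + 2).choose 2 : ℕ) * w ^ n) - 3 * (((n + 1).choose 1 : ℕ) * w ^ n)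
        + ((n + 0).choose 0 : ℕ) * w ^ n := by
    funext n
    rw [ConstA_choose_two, ConstA_choose_one]
    simp only [Nat.choose_zero_right, Nat.cast_one]
    ring
  rw [hfun, H.tsum_eq]
  field_simp
  ring

theorem ConstA_tsum_cube_mul_pow {w : ℂ} (hw : ‖w‖ < 1) :
    ∑' m : ℕ, (m : ℂ) ^ 3 * w ^ m = w * (1 + 4 * w + w ^ 2) / (1 - w) ^ 4 := by
  have h0 := hasSum_choose_mul_geometric_of_norm_lt_one 0 hw
  have h1 := hasSum_choose_mul_geometric_of_norm_lt_one 1 hw
  have h2 := hasSum_choose_mul_geometric_of_norm_lt_one 2 hw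
  have h3 := hasSum_choose_mul_geometric_of_norm_lt_one 3 hw
  have hne := ConstA_one_sub_ne hw
  have H := (((h3.mul_left 6).sub (h2.mul_left 12)).add (h1.mul_left 7)).sub h0
  have hfun : (fun m : ℕ => (m : ℂ) ^ 3 * w ^ m) =
      fun n : ℕ => 6 * (((n + 3).choose 3 : ℕ) * w ^ n) - 12 * (((n + 2).choose 2 : ℕ) * w ^ n)
        + 7 * (((n + 1).choose 1 : ℕ) * w ^ n) - ((n + 0).choose 0 : ℕ) * w ^ n := by
    funext n
    rw [ConstA_choose_three, ConstA_choose_two, ConstA_choose_one]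
    simp only [Nat.choose_zero_right, Nat.cast_one]
    ring
  rw [hfun, H.tsum_eq]
  field_simp
  ring

/-- the Lipschitz formula on the upper half plane, with the closed form `P_k`. -/
theorem ConstA_lipschitz_uhp {k : ℕ} (hk : k = 3 ∨ k = 4) (z : ℍ) :
    ∑' j : ℤ, (((z : ℂ) + j) ^ k)⁻¹ =
      (-2 * π * I) ^ k / (k - 1)! * Pk k (cexp (2 * π * I * z)) := by
  have hw : ‖cexp (2 * π * I * z)‖ < 1 := UpperHalfPlane.norm_exp_two_pi_I_lt_one z
  rcases hk with rfl | rfl
  · have h := EisensteinSeries.qExpansion_identity (k := 2) (by norm_num) z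
    simp only [one_div] at h
    rw [show (2 + 1 : ℕ) = 3 from rfl] at h
    rw [h, ConstA_tsum_sq_mul_pow hw]
    simp [Pk]
  · have h := EisensteinSeries.qExpansion_identity (k := 3) (by norm_num) z
    simp only [one_div] at h
    rw [show (3 + 1 : ℕ) = 4 from rfl] at h
    rw [h, ConstA_tsum_cube_mul_pow hw]
    simp [Pk]

theorem ConstA_add_int_ne (x : ℝ) (hx : ∀ n : ℤ, x ≠ n) (j : ℤ) : (x : ℂ) + j ≠ 0 := by
  intro h
  apply hx (-j)
  have h2 : ((x + j : ℝ) : ℂ) = 0 := by push_cast; exact h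
  have h3 : x + j = 0 := by exact_mod_cast h2
  push_cast
  linarith

theorem ConstA_exp_ne_one (x : ℝ) (hx : ∀ n : ℤ, x ≠ n) : cexp (2 * π * I * x) ≠ 1 := by
  intro h
  rw [Complex.exp_eq_one_iff] at h
  obtain ⟨n, hn⟩ := h
  apply hx n
  have h2 : (2 * π * I : ℂ) ≠ 0 := by
    simp [Real.pi_ne_zero, I_ne_zero]
  have h3 : (x : ℂ) = n := by
    apply mul_left_cancel₀ h2
    rw [hn]; ring
  exact_mod_cast h3

theorem ConstA_continuousAt_Pk {k : ℕ} {w : ℂ} (hw : w ≠ 1) : ContinuousAt (Pk k) w := by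
  have hne : (1 : ℂ) - w ≠ 0 := fun h => hw (by linear_combination -h)
  by_cases h3 : k = 3
  · subst h3
    have : (Pk 3 : ℂ → ℂ) = fun w => w * (1 + w) / (1 - w) ^ 3 := by
      funext w; simp [Pk]
    rw [this]
    apply ContinuousAt.div
    · fun_prop
    · fun_prop
    · exact pow_ne_zero _ hne
  · by_cases h4 : k = 4
    · subst h4
      have : (Pk 4 : ℂ → ℂ) = fun w => w * (1 + 4 * w + w ^ 2) / (1 - w) ^ 4 := by
        funext w; simp [Pk]
      rw [this]
      apply ContinuousAt.div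
      · fun_prop
      · fun_prop
      · exact pow_ne_zero _ hne
    · have : (Pk k : ℂ → ℂ) = fun _ => 0 := by
        funext w; simp [Pk, h3, h4]
      rw [this]
      exact continuousAt_const

theorem ConstA_lipschitz_real {k : ℕ} (hk : k = 3 ∨ k = 4) (x : ℝ) (hx : ∀ n : ℤ, x ≠ n) :
    ∑' j : ℤ, (((x : ℂ) + j) ^ k)⁻¹ =
      (-2 * π * I) ^ k / (k - 1)! * Pk k (cexp (2 * π * I * x)) := by
  have hk2 : (2 : ℤ) ≤ (k : ℤ) := by rcases hk with rfl | rfl <;> norm_num
  -- the family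
  set F : ℝ → ℤ → ℂ := fun t j => (((x : ℂ) + t * I + j) ^ k)⁻¹ with hF
  -- summable bound
  have hsum : Summable fun j : ℤ => ‖(((x : ℂ) + j) ^ k)⁻¹‖ := by
    have h := (EisensteinSeries.linear_right_summable (x : ℂ) 1 hk2).norm
    simpa using h
  -- pointwise convergence
  have hpt : ∀ j : ℤ, Tendsto (fun t : ℝ => F t j) (𝓝[>] 0) (𝓝 ((((x : ℂ) + j) ^ k)⁻¹)) := by
    intro j
    have hc : ContinuousAt (fun t : ℝ => F t j) 0 := by
      apply ContinuousAt.inv₀
      · fun_prop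
      · simpa using pow_ne_zero k (ConstA_add_int_ne x hx j)
    have h0 : F 0 j = (((x : ℂ) + j) ^ k)⁻¹ := by simp [hF]
    rw [← h0]
    exact hc.tendsto.mono_left nhdsWithin_le_nhds
  -- the bound
  have hbd : ∀ᶠ t : ℝ in 𝓝[>] 0, ∀ j : ℤ, ‖F t j‖ ≤ ‖(((x : ℂ) + j) ^ k)⁻¹‖ := by
    refine Eventually.of_forall fun t j => ?_
    simp only [hF, norm_inv, norm_pow]
    have hpos : 0 < ‖(x : ℂ) + j‖ := norm_pos_iff.mpr (ConstA_add_int_ne x hx j)
    have hle : ‖(x : ℂ) + j‖ ≤ ‖(x : ℂ) + t * I + j‖ := by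
      have h1 : ‖(x : ℂ) + j‖ = |x + j| := by
        rw [show (x : ℂ) + j = ((x + j : ℝ) : ℂ) by push_cast; rfl, Complex.norm_real]
        rfl
      have h2 : ((x : ℂ) + t * I + j).re = x + j := by simp
      rw [h1, ← h2]
      exact Complex.abs_re_le_norm _
    exact inv_anti₀ (pow_pos hpos k) (pow_le_pow_left₀ hpos.le hle k)
  have hL := tendsto_tsum_of_dominated_convergence hsum hpt hbd
  -- right-hand side
  have hR : Tendsto (fun t : ℝ => (-2 * π * I) ^ k / (k - 1)! *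
      Pk k (cexp (2 * π * I * ((x : ℂ) + t * I)))) (𝓝[>] 0)
      (𝓝 ((-2 * π * I) ^ k / (k - 1)! * Pk k (cexp (2 * π * I * x)))) := by
    have hc : ContinuousAt (fun t : ℝ => (-2 * π * I) ^ k / (k - 1)! *
        Pk k (cexp (2 * π * I * ((x : ℂ) + t * I)))) 0 := by
      apply ContinuousAt.mul continuousAt_const
      have hg : ContinuousAt (fun t : ℝ => cexp (2 * π * I * ((x : ℂ) + t * I))) 0 := by
        fun_prop
      have hP : ContinuousAt (Pk k) (cexp (2 * π * I * ((x : ℂ) + ((0 : ℝ) : ℂ) * I))) := by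
        apply ConstA_continuousAt_Pk
        simpa using ConstA_exp_ne_one x hx
      exact ContinuousAt.comp (f := fun t : ℝ => cexp (2 * π * I * ((x : ℂ) + t * I))) hP hg
    have h := hc.tendsto.mono_left (nhdsWithin_le_nhds (s := Set.Ioi (0 : ℝ)))
    simpa using h
  -- equality for `t > 0`
  have heq : ∀ᶠ t : ℝ in 𝓝[>] 0, ∑' j : ℤ, F t j = (-2 * π * I) ^ k / (k - 1)! *
      Pk k (cexp (2 * π * I * ((x : ℂ) + t * I))) := by
    filter_upwards [self_mem_nhdsWithin] with t ht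
    have ht' : 0 < ((x : ℂ) + t * I).im := by simpa using ht
    exact ConstA_lipschitz_uhp hk ⟨(x : ℂ) + t * I, ht'⟩
  exact tendsto_nhds_unique (hL.congr' heq) hR

end

end Fermat.Agent.S48.EIS
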