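import Fermat.Agent.S48.EIS.QExp
import Fermat.Agent.S48.EIS.ConstAAux

/-!
# S48 / EIS : the constant terms `cst_k(d) = K_k P_k(ζ^d)`, `k = 3, 4`
TASKS S48/EIS-ConstA (`tsum_sq_mul_pow`, `tsum_cube_mul_pow`, `lipschitz_real`), S48/EIS-ConstB (the rest).

The Lipschitz formula `∑_j (z + j)^{-k} = C_k ∑_m m^{k-1} e(m z)` holds on `ℍ`; there the right-hand side is
`C_k P_k(e(z))`; let `z = x + i t → x ∈ ℝ ∖ ℤ`.
-/

set_option autoImplicit false

open UpperHalfPlane hiding I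
open EisensteinSeries Complex Filter Topology Function
open scoped Real Nat

namespace Fermat.Agent.S48.EIS

noncomputable section

local notation "𝕢" => Periodic.qParam

/-- `∑ m² w^m = w(1+w)/(1-w)³`.  (`m² = 2 C(m+2,2) - 3 C(m+1,1) + 1` and Mathlib
`hasSum_choose_mul_geometric_of_norm_lt_one`.) -/
theorem tsum_sq_mul_pow {w : ℂ} (hw : ‖w‖ < 1) :
    ∑' m : ℕ, (m : ℂ) ^ 2 * w ^ m = w * (1 + w) / (1 - w) ^ 3 :=
  ConstA_tsum_sq_mul_pow hw

/-- `∑ m³ w^m = w(1+4w+w²)/(1-w)⁴`.  (`m³ = 6 C(m+3,3) - 12 C(m+2,2) + 7 C(m+1,1) - 1`.) -/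
theorem tsum_cube_mul_pow {w : ℂ} (hw : ‖w‖ < 1) :
    ∑' m : ℕ, (m : ℂ) ^ 3 * w ^ m = w * (1 + 4 * w + w ^ 2) / (1 - w) ^ 4 :=
  ConstA_tsum_cube_mul_pow hw

/-- **Lipschitz formula at a real non-integral point**, `k = 3, 4`.
Proof: for `t > 0`, `z_t = x + i t ∈ ℍ`: `∑_j (z_t + j)^{-k} = C_k P_k(e(z_t))` by `EisensteinSeries.qExpansion_identity`
and the two lemmas above.  `t → 0+`: left-hand side by `tendsto_tsum_of_dominated_convergence` with the bound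
`‖(z_t + j)^{-k}‖ ≤ |x + j|^{-k}` (summable: `Real.summable_one_div_int_add_rpow` / compare with
`EisensteinSeries.linear_right_summable`); the right-hand side is continuous at `w = e(x) ≠ 1`. -/
theorem lipschitz_real {k : ℕ} (hk : k = 3 ∨ k = 4) (x : ℝ) (hx : ∀ n : ℤ, x ≠ n) :
    ∑' j : ℤ, (((x : ℂ) + j) ^ k)⁻¹ =
      (-2 * π * I) ^ k / (k - 1)! * Pk k (cexp (2 * π * I * x)) :=
  ConstA_lipschitz_real hk x hx

variable {M : ℕ} [NeZero M]

/-- **the constant terms.**  (`n = d.val + M j`, `x = d.val / M ∈ (0,1)`, `e(x) = ζ^{d.val}`.) -/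
theorem cst_eq {k : ℕ} (hk : k = 3 ∨ k = 4) (d : ZMod M) (hd : d ≠ 0) :
    cst M k d = K M k * Pk k (zeta M ^ d.val) := by
  classical
  have hM0 : (M : ℂ) ≠ 0 := Nat.cast_ne_zero.2 (NeZero.ne M)
  have hMR : (M : ℝ) ≠ 0 := Nat.cast_ne_zero.2 (NeZero.ne M)
  have hMpos : (0 : ℝ) < M := Nat.cast_pos.2 (Nat.pos_of_ne_zero (NeZero.ne M))
  -- the real point
  set x : ℝ := (d.val : ℝ) / M with hxdef
  have hval0 : 0 < d.val := Nat.pos_of_ne_zero fun h0 => hd ((ZMod.val_eq_zero d).1 h0)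
  have hvalM : d.val < M := ZMod.val_lt d
  have hx0 : 0 < x := div_pos (Nat.cast_pos.2 hval0) hMpos
  have hx1 : x < 1 := by
    rw [hxdef, div_lt_one hMpos]
    exact_mod_cast hvalM
  have hx : ∀ n : ℤ, x ≠ n := by
    intro n hn
    rw [hn] at hx0 hx1
    have h0 : (0 : ℤ) < n := by exact_mod_cast hx0
    have h1 : n < (1 : ℤ) := by exact_mod_cast hx1
    omega
  -- reindexing
  let g : ℤ → ℤ := fun j => (d.val : ℤ) + M * j
  have hg : Function.Injective g := by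
    intro a b hab
    have h1 : (M : ℤ) * a = M * b := by simpa [g] using hab
    exact mul_left_cancel₀ (Nat.cast_ne_zero.2 (NeZero.ne M)) h1
  have hgd : ∀ j : ℤ, ((g j : ℤ) : ZMod M) = d := by
    intro j
    simp [g]
  have hsupp : Function.support
      (fun n : ℤ => if (n : ZMod M) = d then ((n : ℂ) ^ k)⁻¹ else 0) ⊆ Set.range g := by
    intro n hn
    have hnd : (n : ZMod M) = d := by
      by_contra hcon
      exact hn (if_neg hcon)
    have h1 : (((d.val : ℕ) : ℤ) : ZMod M) = (n : ZMod M) := by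
      rw [hnd]
      simp
    obtain ⟨j, hj⟩ := (ZMod.intCast_eq_intCast_iff_dvd_sub _ _ _).1 h1
    exact ⟨j, by simp only [g]; omega⟩
  have h1 := hg.tsum_eq hsupp
  rw [cst, ← h1]
  have h2 : ∀ j : ℤ, (if ((g j : ℤ) : ZMod M) = d then (((g j : ℤ) : ℂ) ^ k)⁻¹ else 0)
      = ((M : ℂ) ^ k)⁻¹ * ((((x : ℝ) : ℂ) + j) ^ k)⁻¹ := by
    intro j
    rw [if_pos (hgd j), ← mul_inv, ← mul_pow]
    congr 2
    simp only [g, hxdef]
    push_cast
    field_simp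
  rw [tsum_congr h2, tsum_mul_left, lipschitz_real hk x hx]
  have h3 : cexp (2 * π * I * (x : ℝ)) = zeta M ^ d.val := by
    rw [zeta, ← Complex.exp_nat_mul]
    congr 1
    simp only [hxdef]
    push_cast
    field_simp
  rw [h3, K]
  have hfac : (((k - 1)! : ℕ) : ℂ) ≠ 0 := Nat.cast_ne_zero.2 (Nat.factorial_ne_zero _)
  field_simp

theorem K_ne_zero (k : ℕ) : K M k ≠ 0 := by
  have hM0 : (M : ℂ) ≠ 0 := Nat.cast_ne_zero.2 (NeZero.ne M)
  have hfac : (((k - 1)! : ℕ) : ℂ) ≠ 0 := Nat.cast_ne_zero.2 (Nat.factorial_ne_zero _)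
  have hpi : (-2 * π * I : ℂ) ≠ 0 := by
    simp [Real.pi_ne_zero, Complex.I_ne_zero]
  rw [K]
  exact div_ne_zero (pow_ne_zero _ hpi) (mul_ne_zero hfac (pow_ne_zero _ hM0))

theorem qc_eq {k : ℕ} (hk : k = 3 ∨ k = 4) (v : Fin 2 → ZMod M) (hv : v ≠ 0) (n : ℕ) :
    qc M k v n = K M k * nc (zeta M) k v n := by
  rw [qc, nc]
  by_cases hn : n = 0
  · rw [if_pos hn, if_pos hn]
    by_cases hv0 : v 0 = 0
    · rw [if_pos hv0, if_pos hv0]
      refine cst_eq hk (v 1) fun hv1 => hv ?_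
      funext i
      fin_cases i
      · exact hv0
      · exact hv1
    · rw [if_neg hv0, if_neg hv0, mul_zero]
  · rw [if_neg hn, if_neg hn]

theorem qc₀_eq {k : ℕ} (hk : k = 3 ∨ k = 4) (a : ZMod M) (ha : a ≠ 0) (n : ℕ) :
    qc₀ M k a n = K M k * nc₀ (zeta M) k a n := by
  rw [qc₀, nc₀]
  by_cases hn : n = 0
  · rw [if_pos hn, if_pos hn]
    exact cst_eq hk a ha
  · rw [if_neg hn, if_neg hn]

/-- **EXPORT (for X1, C1).**  The `q_M`-expansion of `G_{k,v} / K_k`, `k = 3, 4`, `v ≠ 0`. -/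
theorem hasSum_G_div_K {k : ℕ} (hk : k = 3 ∨ k = 4) (v : Fin 2 → ZMod M) (hv : v ≠ 0) (τ : ℍ) :
    HasSum (fun n : ℕ => nc (zeta M) k v n • 𝕢 (M : ℝ) τ ^ n) (G M k v τ / K M k) := by
  have hk3 : 3 ≤ k := by rcases hk with rfl | rfl <;> norm_num
  have h := (hasSum_G hk3 v τ).div_const (K M k)
  refine h.congr_fun ?_ |> fun h' => h'
  intro n
  rw [qc_eq hk v hv n, smul_eq_mul, smul_eq_mul]
  field_simp [K_ne_zero (M := M) k]

/-- **EXPORT.**  The `q`-expansion of `G_{k,(0,a)} / K_k`, `k = 3, 4`, `a ≠ 0`. -/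
theorem hasSum_G₀_div_K {k : ℕ} (hk : k = 3 ∨ k = 4) (a : ZMod M) (ha : a ≠ 0) (τ : ℍ) :
    HasSum (fun n : ℕ => nc₀ (zeta M) k a n • 𝕢 (1 : ℝ) τ ^ n) (G M k ![0, a] τ / K M k) := by
  have hk3 : 3 ≤ k := by rcases hk with rfl | rfl <;> norm_num
  have h := (hasSum_G₀ hk3 a τ).div_const (K M k)
  refine h.congr_fun ?_ |> fun h' => h'
  intro n
  rw [qc₀_eq hk a ha n, smul_eq_mul, smul_eq_mul]
  field_simp [K_ne_zero (M := M) k]

/-- `P_4(w) = s + 6 s²`, `s = w/(1-w)²`. -/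
theorem Pk_four_eq {R : Type*} [Field R] (w : R) (hw : w ≠ 1) :
    Pk 4 w = w / (1 - w) ^ 2 + 6 * (w / (1 - w) ^ 2) ^ 2 := by
  have h1 : (1 - w) ≠ 0 := sub_ne_zero.2 (Ne.symm hw)
  rw [Pk, if_neg (by norm_num), if_pos rfl]
  field_simp
  ring

theorem map_Pk {R S : Type*} [Field R] [Field S] (f : R →+* S) (k : ℕ) (w : R) :
    f (Pk k w) = Pk k (f w) := by
  have h4 : f 4 = 4 := map_ofNat f 4
  unfold Pk
  split_ifs <;> simp [h4]

theorem map_nc {R S : Type*} [Field R] [Field S] (f : R →+* S) (z : R) (k : ℕ)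
    (v : Fin 2 → ZMod M) (n : ℕ) : f (nc z k v n) = nc (f z) k v n := by
  unfold nc
  split_ifs
  · rw [map_Pk, map_pow]
  · exact map_zero f
  · exact map_coef f z k v n

theorem map_nc₀ {R S : Type*} [Field R] [Field S] (f : R →+* S) (z : R) (k : ℕ)
    (a : ZMod M) (n : ℕ) : f (nc₀ z k a n) = nc₀ (f z) k a n := by
  unfold nc₀
  split_ifs
  · rw [map_Pk, map_pow]
  · exact map_coef₀ f z k a n

end

end Fermat.Agent.S48.EIS
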