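import Mathlib

/-!
# S48 / EIS : the Eisenstein series `G_{k,v}` of level `M` (definitions)

`G_{k,v}(τ) = ∑_{w ∈ ℤ², w ≡ v (M)} (w₀ τ + w₁)^{-k}`, `k ≥ 3`, `v ∈ (ℤ/M)²`  (the term `w = 0` is `0`).

NOTATION  `ζ = e(1/M)`, `q_M = e(τ/M) = 𝕢 M τ`, `K_k = (-2πi)^k / ((k-1)! M^k)`, `v = (c, d)`.

`G_{k,v} = [c = 0] cst_k(d) + K_k ∑_{n ≥ 1} coef_{k,v}(n) q_M^n`,
`coef_{k,v}(n) = ∑_{m ∣ n} m^{k-1} ([n/m ≡ c] ζ^{m d} + (-1)^k [n/m ≡ -c] ζ^{-m d})`,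
`cst_k(d) = ∑_{n ≡ d (M)} n^{-k} = K_k P_k(ζ^d)` (`d ≠ 0`), `P_3(w) = w(1+w)/(1-w)^3`, `P_4(w) = w(1+4w+w^2)/(1-w)^4`.
-/

set_option autoImplicit false

open UpperHalfPlane hiding I
open EisensteinSeries Complex
open scoped Real Nat

namespace Fermat.Agent.S48.EIS

noncomputable section

/-- The series `∑_w c(w) (w₀ τ + w₁)^{-k}`. -/
def Gc (k : ℕ) (c : (Fin 2 → ℤ) → ℂ) (z : ℍ) : ℂ := ∑' w : Fin 2 → ℤ, c w * eisSummand k w z

variable (M : ℕ)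

/-- reduction mod `M` of an integral vector. -/
def redv (w : Fin 2 → ℤ) : Fin 2 → ZMod M := fun i => (w i : ZMod M)

open Classical in
/-- the indicator function of the class `v`. -/
def ind (v : Fin 2 → ZMod M) (w : Fin 2 → ℤ) : ℂ := if redv M w = v then 1 else 0

/-- `G_{k,v}`. -/
def G (k : ℕ) (v : Fin 2 → ZMod M) : ℍ → ℂ := Gc k (ind M v)

/-- `ζ = e(1/M)`. -/
def zeta : ℂ := cexp (2 * π * I / M)

/-- `K_k = (-2πi)^k / ((k-1)! M^k)`. -/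
def K (k : ℕ) : ℂ := (-2 * π * I) ^ k / ((k - 1)! * (M : ℂ) ^ k)

open Classical in
/-- `cst_k(d) = ∑_{n ≡ d (M)} n^{-k}`. -/
def cst (k : ℕ) (d : ZMod M) : ℂ := ∑' n : ℤ, if (n : ZMod M) = d then ((n : ℂ) ^ k)⁻¹ else 0

variable {M}

open Classical in
/-- The coefficient of `q_M^n` (`n ≥ 1`) in `G_{k,v} / K_k`, for an arbitrary `M`-th root of unity `z` in a
commutative ring. -/
def coef {R : Type*} [CommRing R] (z : R) (k : ℕ) (v : Fin 2 → ZMod M) (n : ℕ) : R :=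
  ∑ m ∈ n.divisors, (m : R) ^ (k - 1) *
    ((if ((n / m : ℕ) : ZMod M) = v 0 then z ^ (m * (v 1).val) else 0) +
      (-1) ^ k * (if ((n / m : ℕ) : ZMod M) = - v 0 then z ^ (m * (- v 1).val) else 0))

/-- `P_3(w) = w(1+w)/(1-w)^3`, `P_4(w) = w(1+4w+w^2)/(1-w)^4` (junk `0` for the other `k`). -/
def Pk {R : Type*} [Field R] (k : ℕ) (w : R) : R :=
  if k = 3 then w * (1 + w) / (1 - w) ^ 3
  else if k = 4 then w * (1 + 4 * w + w ^ 2) / (1 - w) ^ 4 else 0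

/-- All the coefficients of `G_{k,v} / K_k` (`k = 3, 4`, `v ≠ 0`). -/
def nc {R : Type*} [Field R] (z : R) (k : ℕ) (v : Fin 2 → ZMod M) (n : ℕ) : R :=
  if n = 0 then (if v 0 = 0 then Pk k (z ^ (v 1).val) else 0) else coef z k v n

/-- The coefficient of `q^n` (`n ≥ 1`) in `G_{k,(0,a)} / K_k`. -/
def coef₀ {R : Type*} [CommRing R] (z : R) (k : ℕ) (a : ZMod M) (n : ℕ) : R :=
  ∑ m ∈ n.divisors, (m : R) ^ (k - 1) * (z ^ (m * a.val) + (-1) ^ k * z ^ (m * (- a).val))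

/-- All the coefficients (in `q`) of `G_{k,(0,a)} / K_k`. -/
def nc₀ {R : Type*} [Field R] (z : R) (k : ℕ) (a : ZMod M) (n : ℕ) : R :=
  if n = 0 then Pk k (z ^ a.val) else coef₀ z k a n

/-- the exponent of the leading term of `G_{k,v}` in `q_M`. -/
def mu (v : Fin 2 → ZMod M) : ℕ := min (v 0).val (M - (v 0).val)

end

end Fermat.Agent.S48.EIS
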