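import Fermat.Agent.S48.EIS.Defs

/-!
# S48 / EIS : the series `Gc k c τ = ∑_w c(w) (w₀ τ + w₁)^{-k}` for bounded `c`, `k ≥ 3`
TASK S48/EIS-Gc.

This is `Fermat/Agent/ES/An/Eis/Gc.lean` (weight `4`, Mathlib only, sorry-free) with `4` replaced by `k ≥ 3`:
COPY the proofs (`summable_norm_eisSummand`, `summand_bound_of_mem_verticalStrip`, `summable_one_div_norm_rpow` need
`3 ≤ (k : ℤ)`, resp. `2 < (k : ℝ)`).  Do NOT import that file (same lemma names are fine: other namespace).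
-/

set_option autoImplicit false

open UpperHalfPlane hiding I
open EisensteinSeries Matrix Filter Topology
open scoped MatrixGroups Manifold ModularForm

namespace Fermat.Agent.S48.EIS

noncomputable section

variable {k : ℕ} {c : (Fin 2 → ℤ) → ℂ}

lemma vecMul_mul_inv (γ : SL(2, ℤ)) (v : Fin 2 → ℤ) :
    (v ᵥ* (γ : Matrix (Fin 2) (Fin 2) ℤ)) ᵥ* ((γ⁻¹ : SL(2, ℤ)) : Matrix (Fin 2) (Fin 2) ℤ) = v := by
  rw [vecMul_vecMul, ← Matrix.SpecialLinearGroup.coe_mul, mul_inv_cancel,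
    Matrix.SpecialLinearGroup.coe_one, vecMul_one]

lemma vecMul_inv_mul (γ : SL(2, ℤ)) (v : Fin 2 → ℤ) :
    (v ᵥ* ((γ⁻¹ : SL(2, ℤ)) : Matrix (Fin 2) (Fin 2) ℤ)) ᵥ* (γ : Matrix (Fin 2) (Fin 2) ℤ) = v := by
  rw [vecMul_vecMul, ← Matrix.SpecialLinearGroup.coe_mul, inv_mul_cancel,
    Matrix.SpecialLinearGroup.coe_one, vecMul_one]

/-- right multiplication by `γ` on row vectors. -/
def vecEquiv (γ : SL(2, ℤ)) : (Fin 2 → ℤ) ≃ (Fin 2 → ℤ) where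
  toFun v := v ᵥ* γ
  invFun v := v ᵥ* ↑(γ⁻¹)
  left_inv v := vecMul_mul_inv γ v
  right_inv v := vecMul_inv_mul γ v

lemma norm_term_le (hc : ∀ v, ‖c v‖ ≤ 1) (v : Fin 2 → ℤ) (z : ℍ) :
    ‖c v * eisSummand k v z‖ ≤ ‖eisSummand k v z‖ := by
  rw [norm_mul]
  exact mul_le_of_le_one_left (norm_nonneg _) (hc v)

theorem summable_term (hk : 3 ≤ k) (hc : ∀ w, ‖c w‖ ≤ 1) (z : ℍ) :
    Summable fun w : Fin 2 → ℤ => c w * eisSummand k w z :=
  Summable.of_norm_bounded (summable_norm_eisSummand (k := k) (by exact_mod_cast hk) z)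
    (fun v => norm_term_le hc v z)

lemma norm_eisSummand_le {A B : ℝ} (hB : 0 < B) {z : ℍ} (hz : z ∈ verticalStrip A B)
    (v : Fin 2 → ℤ) :
    ‖eisSummand k v z‖ ≤ r ⟨⟨A, B⟩, hB⟩ ^ (-(k : ℝ)) * ‖v‖ ^ (-(k : ℝ)) := by
  have h := summand_bound_of_mem_verticalStrip (k := k) (by positivity) v hB hz
  simp only [eisSummand, norm_zpow]
  have e : ‖(v 0 : ℂ) * (z : ℂ) + (v 1 : ℂ)‖ ^ (-(k : ℤ)) =
      ‖(v 0 : ℂ) * (z : ℂ) + (v 1 : ℂ)‖ ^ (-(k : ℝ)) := by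
    rw [← Real.rpow_intCast]; norm_num
  rw [e]
  exact h

lemma summable_bound (hk : 3 ≤ k) {A B : ℝ} (hB : 0 < B) :
    Summable fun v : Fin 2 → ℤ => r ⟨⟨A, B⟩, hB⟩ ^ (-(k : ℝ)) * ‖v‖ ^ (-(k : ℝ)) := by
  have h2 : (2 : ℝ) < (k : ℝ) := by
    have : (3 : ℝ) ≤ (k : ℝ) := by exact_mod_cast hk
    linarith
  exact (summable_one_div_norm_rpow (k := k) (by simpa using h2)).mul_left _

/-- the majorant. -/
def Maj (k : ℕ) (z : ℍ) : ℝ := ∑' v : Fin 2 → ℤ, ‖eisSummand k v z‖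

lemma norm_Gc_le (hk : 3 ≤ k) (hc : ∀ v, ‖c v‖ ≤ 1) (z : ℍ) : ‖Gc k c z‖ ≤ Maj k z := by
  have h0 := summable_norm_eisSummand (k := k) (by exact_mod_cast hk) z
  have h1 : Summable fun v : Fin 2 → ℤ => ‖c v * eisSummand k v z‖ :=
    Summable.of_nonneg_of_le (fun _ => norm_nonneg _) (fun v => norm_term_le hc v z) h0
  exact (norm_tsum_le_tsum_norm h1).trans
    (h1.tsum_le_tsum (fun v => norm_term_le hc v z) h0)

lemma Maj_smul (γ : SL(2, ℤ)) (z : ℍ) : Maj k (γ • z) = ‖denom γ z‖ ^ (k : ℤ) * Maj k z := by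
  unfold Maj
  simp_rw [eisSummand_SL2_apply, norm_mul, norm_zpow, tsum_mul_left]
  congr 1
  exact (vecEquiv γ).tsum_eq (fun v => ‖eisSummand k v z‖)

lemma Maj_T_zpow (n : ℤ) (z : ℍ) : Maj k (ModularGroup.T ^ n • z) = Maj k z := by
  rw [Maj_smul]
  have : denom (ModularGroup.T ^ n : SL(2, ℤ)) z = 1 := by
    rw [ModularGroup.denom_apply, ModularGroup.coe_T_zpow]
    simp
  rw [this]; simp

lemma Maj_le_of_mem (hk : 3 ≤ k) {A B : ℝ} (hB : 0 < B) {z : ℍ} (hz : z ∈ verticalStrip A B) :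
    Maj k z ≤ ∑' v : Fin 2 → ℤ, r ⟨⟨A, B⟩, hB⟩ ^ (-(k : ℝ)) * ‖v‖ ^ (-(k : ℝ)) :=
  (summable_norm_eisSummand (k := k) (by exact_mod_cast hk) z).tsum_le_tsum
    (fun v => norm_eisSummand_le hB hz v) (summable_bound hk hB)

theorem Gc_slash (k : ℕ) (c : (Fin 2 → ℤ) → ℂ) (γ : SL(2, ℤ)) :
    Gc k c ∣[(k : ℤ)] γ = Gc k (fun w => c (w ᵥ* ↑(γ⁻¹))) := by
  ext1 z
  rw [ModularForm.SL_slash_apply, _root_.zpow_neg,
    mul_inv_eq_iff_eq_mul₀ (zpow_ne_zero _ <| denom_ne_zero _ z)]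
  unfold Gc
  simp_rw [eisSummand_SL2_apply]
  rw [← tsum_mul_right]
  rw [← (vecEquiv γ).tsum_eq (fun v => c (v ᵥ* ↑(γ⁻¹)) *
    eisSummand k v z * denom γ z ^ (k : ℤ))]
  refine tsum_congr fun v => ?_
  have : (vecEquiv γ v) ᵥ* ↑(γ⁻¹) = v :=
    (vecEquiv γ).left_inv v
  rw [this]
  show _ = c v * eisSummand k (v ᵥ* γ) z * _
  ring

lemma Gc_tendstoLocallyUniformly (hk : 3 ≤ k) (hc : ∀ v, ‖c v‖ ≤ 1) :
    TendstoLocallyUniformly (fun (s : Finset (Fin 2 → ℤ)) ↦ (∑ v ∈ s, c v * eisSummand k v ·))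
      (Gc k c ·) Filter.atTop := by
  simp only [tendstoLocallyUniformly_iff_forall_isCompact, Gc]
  intro K hK
  obtain ⟨A, B, hB, HABK⟩ := subset_verticalStrip_of_isCompact hK
  refine (tendstoUniformlyOn_tsum (hu := summable_bound hk (A := A) hB)
    (fun p z hz ↦ ?_)).mono HABK
  exact (norm_term_le hc p z).trans (norm_eisSummand_le hB hz p)

lemma Gc_tendstoLocallyUniformlyOn (hk : 3 ≤ k) (hc : ∀ v, ‖c v‖ ≤ 1) :
    TendstoLocallyUniformlyOn (fun (s : Finset (Fin 2 → ℤ)) ↦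
      ↑ₕ(fun (z : ℍ) ↦ ∑ v ∈ s, c v * eisSummand k v z)) (↑ₕ(Gc k c))
          Filter.atTop {z : ℂ | 0 < z.im} := by
  rw [← upperHalfPlaneSet, ← range_coe, ← Set.image_univ]
  apply TendstoLocallyUniformlyOn.comp (s := ⊤) _ _ _ (OpenPartialHomeomorph.continuousOn_symm _)
  · simp only [Set.top_eq_univ, tendstoLocallyUniformlyOn_univ]
    exact Gc_tendstoLocallyUniformly hk hc
  · simp only [IsOpenEmbedding.toOpenPartialHomeomorph_target, Set.top_eq_univ,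
      Set.mapsTo_range_iff, Set.mem_univ, forall_const]

theorem Gc_mdiff (hk : 3 ≤ k) (hc : ∀ w, ‖c w‖ ≤ 1) : MDiff (Gc k c) := by
  rw [UpperHalfPlane.mdifferentiable_iff]
  refine (Gc_tendstoLocallyUniformlyOn hk hc).differentiableOn
    (Eventually.of_forall fun s ↦ ?_) isOpen_upperHalfPlaneSet
  have : (↑ₕ(fun (z : ℍ) ↦ ∑ v ∈ s, c v * eisSummand k v z)) =
      fun w : ℂ => ∑ v ∈ s, c v * (↑ₕ(eisSummand k v)) w := by
    funext w
    simp [Function.comp]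
  rw [this]
  exact DifferentiableOn.fun_sum fun v _ ↦
    (eisSummand_extension_differentiableOn k v).const_mul (c v)

theorem Gc_isBoundedAtImInfty (hk : 3 ≤ k) (hc : ∀ w, ‖c w‖ ≤ 1) :
    IsBoundedAtImInfty (Gc k c) := by
  rw [UpperHalfPlane.isBoundedAtImInfty_iff]
  refine ⟨∑' v : Fin 2 → ℤ, r ⟨⟨1, 1⟩, one_pos⟩ ^ (-(k : ℝ)) * ‖v‖ ^ (-(k : ℝ)), 1, fun z hz => ?_⟩
  obtain ⟨n, hn⟩ := ModularGroup_T_zpow_mem_verticalStrip z (N := 1) one_pos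
  refine (norm_Gc_le hk hc z).trans ?_
  rw [← Maj_T_zpow ((1 : ℕ) * n) z]
  apply Maj_le_of_mem hk one_pos
  have := verticalStrip_anti_right (1 : ℕ) hz hn
  simpa using this

end

end Fermat.Agent.S48.EIS
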