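import Fermat.Agent.S48.EIS.Basic

/-!
# S48 / EIS : the inner sums (Lipschitz formula in a residue class)
TASK S48/EIS-Inner.

`q_M = 𝕢 M τ = e(τ/M)`, `ζ = zeta M = e(1/M)`.
-/

set_option autoImplicit false

open UpperHalfPlane hiding I
open EisensteinSeries Complex Filter Topology Function
open scoped Real Nat

namespace Fermat.Agent.S48.EIS

noncomputable section

local notation "𝕢" => Periodic.qParam

variable {M : ℕ} [NeZero M] {k : ℕ}

theorem isPrimitiveRoot_zeta : IsPrimitiveRoot (zeta M) M :=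
  Complex.isPrimitiveRoot_exp M (NeZero.ne M)

theorem zeta_pow_M : zeta M ^ M = 1 := isPrimitiveRoot_zeta.pow_eq_one

/-- `ζ^n` only depends on `n mod M`. -/
theorem zeta_pow_val (n : ℕ) : zeta M ^ ((n : ZMod M)).val = zeta M ^ n := by
  rw [ZMod.val_natCast]
  exact (pow_eq_pow_mod n zeta_pow_M).symm

/-- `ζ^{(-d).val} = (ζ^{d.val})⁻¹`. -/
theorem zeta_pow_neg_val (d : ZMod M) : zeta M ^ (-d).val = (zeta M ^ d.val)⁻¹ := by
  refine eq_inv_of_mul_eq_one_left ?_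
  rw [← pow_add, ← zeta_pow_val ((-d).val + d.val)]
  simp

theorem norm_qParam_lt_one (τ : ℍ) : ‖𝕢 (M : ℝ) (τ : ℂ)‖ < 1 := by
  rw [Periodic.norm_qParam]
  rw [Real.exp_lt_one_iff]
  have h1 : (0 : ℝ) < M := by exact_mod_cast Nat.pos_of_ne_zero (NeZero.ne M)
  have h2 : 0 < (τ : ℂ).im := τ.2
  have : 0 < 2 * π * (τ : ℂ).im / M := by positivity
  have h3 : -2 * π * (τ : ℂ).im / M = - (2 * π * (τ : ℂ).im / M) := by ring
  rw [h3]; linarith

omit [NeZero M] in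
theorem Inner_cexp_eq (c : ℕ) (d : ZMod M) (τ : ℍ) :
    cexp (2 * π * I * (((c : ℂ) * τ + d.val) / M)) = zeta M ^ d.val * 𝕢 (M : ℝ) τ ^ c := by
  rw [zeta, Periodic.qParam, ← Complex.exp_nat_mul, ← Complex.exp_nat_mul, ← Complex.exp_add]
  congr 1
  push_cast
  ring

open Classical in
/-- **Lipschitz formula in a residue class.**  For `c ≥ 1`:
`∑_{n ≡ d (M)} (c τ + n)^{-k} = K_k ∑_{m ≥ 1} m^{k-1} ζ^{m d} q_M^{m c}`.
Proof: `n = d.val + M j`, `(c τ + d.val + M j)^{-k} = M^{-k} (z' + j)^{-k}` with `z' = (c τ + d.val)/M ∈ ℍ`; Mathlib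
`EisensteinSeries.qExpansion_identity_pnat` (with `k - 1`); `e(z') = ζ^{d.val} q_M^c`.
Reindexing `{n : ℤ // n ≡ d} ≃ ℤ`: `j ↦ d.val + M j` is injective with range the class
(`Function.Injective.tsum_eq` / `tsum_eq_tsum_of_ne_zero_bij`; `ZMod.intCast_eq_intCast_iff_dvd_sub`). -/
theorem tsum_class_eq (hk : 2 ≤ k) (c : ℕ) (hc : 0 < c) (d : ZMod M) (τ : ℍ) :
    (∑' n : ℤ, if (n : ZMod M) = d then (((c : ℂ) * τ + n) ^ k)⁻¹ else 0) =
      K M k * ∑' m : ℕ+, (m : ℂ) ^ (k - 1) * zeta M ^ ((m : ℕ) * d.val) * 𝕢 (M : ℝ) τ ^ ((m : ℕ) * c) := by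
  have hM : (M : ℂ) ≠ 0 := by exact_mod_cast NeZero.ne M
  have hMpos : (0 : ℝ) < M := by exact_mod_cast Nat.pos_of_ne_zero (NeZero.ne M)
  set g : ℤ → ℤ := fun j => (d.val : ℤ) + M * j with hg
  have hginj : Injective g := by
    intro a b hab
    simp only [hg, add_right_inj] at hab
    exact mul_left_cancel₀ (by exact_mod_cast NeZero.ne M) hab
  have hgd : ∀ j, ((g j : ℤ) : ZMod M) = d := by
    intro j
    simp [hg]
  have hsupp : support (fun n : ℤ => if (n : ZMod M) = d then (((c : ℂ) * τ + n) ^ k)⁻¹ else 0)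
      ⊆ Set.range g := by
    intro n hn
    have hn' : (n : ZMod M) = d := by
      by_contra h
      simp [h] at hn
    have h1 : ((n : ℤ) : ZMod M) = ((d.val : ℤ) : ZMod M) := by simp [hn']
    rw [ZMod.intCast_eq_intCast_iff_dvd_sub] at h1
    obtain ⟨j, hj⟩ := h1
    refine ⟨-j, ?_⟩
    simp only [hg]
    linarith
  rw [← hginj.tsum_eq hsupp]
  simp only [hgd, if_true]
  -- the point z'
  have him : 0 < (((c : ℂ) * τ + d.val) / M).im := by
    have h1 : (((c : ℂ) * τ + d.val) / M).im = (c : ℝ) * (τ : ℂ).im / M := by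
      rw [show ((c : ℂ) * τ + d.val) / M = (((c : ℝ) / M : ℝ) : ℂ) * τ + (((d.val : ℝ) / M : ℝ) : ℂ) by
        push_cast; field_simp]
      rw [Complex.add_im, Complex.im_ofReal_mul, Complex.ofReal_im]
      ring
    rw [h1]
    have h2 : 0 < (τ : ℂ).im := τ.2
    have h3 : (0 : ℝ) < c := by exact_mod_cast hc
    positivity
  have H := qExpansion_identity_pnat (k := k - 1) (by omega) ⟨((c : ℂ) * τ + d.val) / M, him⟩
  rw [show k - 1 + 1 = k by omega] at H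
  have hterm : ∀ j : ℤ, (((c : ℂ) * τ + (g j : ℤ)) ^ k)⁻¹ =
      ((M : ℂ) ^ k)⁻¹ * (1 / ((((c : ℂ) * τ + d.val) / M) + j) ^ k) := by
    intro j
    rw [show (c : ℂ) * τ + (g j : ℤ) = (M : ℂ) * ((((c : ℂ) * τ + d.val) / M) + j) by
      simp only [hg]; push_cast; field_simp; ring]
    rw [mul_pow, mul_inv, one_div]
  simp_rw [hterm]
  rw [tsum_mul_left]
  change _ * (∑' j : ℤ, 1 / ((((⟨((c : ℂ) * τ + d.val) / M, him⟩ : ℍ) : ℂ)) + j) ^ k) = _
  rw [H]
  change _ * (_ * ∑' n : ℕ+, (n : ℂ) ^ (k - 1) * cexp (2 * π * I * (((c : ℂ) * τ + d.val) / M)) ^ (n : ℕ)) = _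
  rw [Inner_cexp_eq, ← mul_assoc]
  congr 1
  · rw [K]
    have : ((k - 1)! : ℂ) ≠ 0 := by exact_mod_cast Nat.factorial_ne_zero _
    field_simp
  · refine tsum_congr fun n => ?_
    rw [mul_pow, ← pow_mul, ← pow_mul, mul_assoc, mul_comm d.val, mul_comm c]

/-- absolute summability of the double series. -/
theorem summable_double (k : ℕ) (τ : ℍ) :
    Summable fun x : ℕ+ × ℕ+ => ‖((x.2 : ℕ) : ℂ) ^ k * 𝕢 (M : ℝ) τ ^ ((x.2 : ℕ) * (x.1 : ℕ))‖ := by
  have h := summable_prod_mul_pow (𝕜 := ℝ) k (r := ‖𝕢 (M : ℝ) (τ : ℂ)‖)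
    (by rw [norm_norm]; exact norm_qParam_lt_one (M := M) τ)
  refine h.congr fun x => ?_
  rw [norm_mul, norm_pow, norm_pow, Complex.norm_natCast, mul_comm (x.1 : ℕ)]

end

end Fermat.Agent.S48.EIS
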