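import Mathlib

/-!
# S48 / EIS : building modular forms from slash conditions
-/

set_option autoImplicit false

open UpperHalfPlane hiding I
open Filter Topology
open scoped MatrixGroups Manifold ModularForm

namespace Fermat.Agent.S48.EIS

/-- holomorphic + `Γ`-invariant of weight `k` + all `SL₂(ℤ)`-translates bounded at `i∞` `⇒` modular form. -/
theorem exists_modularForm_of (Γ : Subgroup SL(2, ℤ)) [Γ.FiniteIndex] (k : ℤ) (F : ℍ → ℂ)
    (h1 : MDiff F) (h2 : ∀ γ ∈ Γ, F ∣[k] γ = F)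
    (h3 : ∀ g : SL(2, ℤ), IsBoundedAtImInfty (F ∣[k] g)) :
    ∃ f : ModularForm Γ k, (f : ℍ → ℂ) = F := by
  refine ⟨{ toFun := F, slash_action_eq' := ?_, holo' := h1, bdd_at_cusps' := ?_ }, rfl⟩
  · rintro _ ⟨γ, hγ, rfl⟩
    exact h2 γ hγ
  · intro c hc
    rw [Subgroup.IsArithmetic.isCusp_iff_isCusp_SL2Z] at hc
    rw [OnePoint.isBoundedAt_iff_forall_SL2Z hc]
    exact fun γ _ => h3 γ

/-- the same in level one. -/
theorem exists_modularForm_levelOne (k : ℤ) (F : ℍ → ℂ)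
    (h1 : MDiff F) (h2 : ∀ γ : SL(2, ℤ), F ∣[k] γ = F) (h3 : IsBoundedAtImInfty F) :
    ∃ f : ModularForm 𝒮ℒ k, (f : ℍ → ℂ) = F := by
  refine ⟨{ toFun := F, slash_action_eq' := ?_, holo' := h1, bdd_at_cusps' := ?_ }, rfl⟩
  · rintro _ ⟨γ, rfl⟩
    exact h2 γ
  · intro c hc
    rw [Subgroup.IsArithmetic.isCusp_iff_isCusp_SL2Z] at hc
    rw [OnePoint.isBoundedAt_iff_forall_SL2Z hc]
    intro γ _
    rw [h2 γ]
    exact h3

/-- a function with a limit at `i∞` is bounded at `i∞`. -/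
theorem isBoundedAtImInfty_of_tendsto {F : ℍ → ℂ} {c : ℂ} (h : Tendsto F atImInfty (𝓝 c)) :
    IsBoundedAtImInfty F :=
  h.isBigO_one ℝ

end Fermat.Agent.S48.EIS
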