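import Fermat.Agent.S48.EIS.Const
import Fermat.Agent.S48.EIS.MkMF

/-!
# S48 / EIS : the leading terms of the `G_{k,v}` at `i∞`
TASKS S48/EIS-LeadA (`tendsto_of_hasSum`, `tendsto_div_of_hasSum`: general, Mathlib only),
S48/EIS-LeadB (the rest).

`G_{k,v} = qc(μ) q_M^μ + ...`, `μ = mu v = min(c, M - c)` (`c = (v 0).val`), and for `M` odd, `v ≠ 0`, `k = 3, 4` the
coefficient `qc(μ)` is `≠ 0`.
-/

set_option autoImplicit false

open UpperHalfPlane hiding I
open EisensteinSeries Complex Filter Topology Function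
open scoped Real Nat

namespace Fermat.Agent.S48.EIS

noncomputable section

local notation "𝕢" => Periodic.qParam

/-- A power series in `q_h` tends to its constant term at `i∞`.
Proof: `τ₀ = i`, `r₀ = ‖𝕢 h τ₀‖ ∈ (0,1)`; the terms `c n r₀^n` are bounded by some `C` (summable); for `‖x‖ ≤ r₀/2`:
`‖∑_{n ≥ 1} c n x^n‖ ≤ C ∑_{n ≥ 1} (‖x‖/r₀)^n ≤ 2 C ‖x‖ / r₀`; and `𝕢 h τ → 0`
(`UpperHalfPlane.qParam_tendsto_atImInfty`). -/
theorem tendsto_of_hasSum {h : ℝ} (hh : 0 < h) {f : ℍ → ℂ} {c : ℕ → ℂ}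
    (hf : ∀ τ : ℍ, HasSum (fun n : ℕ => c n • 𝕢 h τ ^ n) (f τ)) :
    Tendsto f atImInfty (𝓝 (c 0)) := by
  have hq := UpperHalfPlane.qParam_tendsto_atImInfty hh
  set x₀ : ℂ := 𝕢 h (UpperHalfPlane.I : ℍ) with hx₀
  have hx₀0 : 0 < ‖x₀‖ := by
    rw [norm_pos_iff, hx₀, Periodic.qParam]
    exact Complex.exp_ne_zero _
  have hsum : Summable fun n : ℕ => ‖c n • x₀ ^ n‖ := (hf UpperHalfPlane.I).summable.norm
  have hev : ∀ᶠ τ : ℍ in atImInfty, ∀ n : ℕ, ‖c n • 𝕢 h τ ^ n‖ ≤ ‖c n • x₀ ^ n‖ := by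
    have : ∀ᶠ τ : ℍ in atImInfty, ‖𝕢 h τ‖ < ‖x₀‖ := by
      have h1 := hq.norm
      rw [norm_zero] at h1
      exact h1.eventually (gt_mem_nhds hx₀0)
    filter_upwards [this] with τ hτ n
    rw [norm_smul, norm_smul, norm_pow, norm_pow]
    gcongr
  have hlim : ∀ n : ℕ, Tendsto (fun τ : ℍ => c n • 𝕢 h τ ^ n) atImInfty
      (𝓝 (if n = 0 then c 0 else 0)) := by
    intro n
    rcases Nat.eq_zero_or_pos n with rfl | hn
    · simp
    · rw [if_neg hn.ne']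
      have := (hq.pow n).const_smul (c n)
      rwa [zero_pow hn.ne', smul_zero] at this
  have key := tendsto_tsum_of_dominated_convergence hsum hlim hev
  rw [tsum_ite_eq] at key
  refine key.congr fun τ => ?_
  exact (hf τ).tsum_eq

/-- The same with a leading exponent `μ` (apply the previous lemma to `f / q_h^μ`, `n ↦ c (n + μ)`;
`hasSum_nat_add_iff'`, the first `μ` terms vanish; `𝕢 h τ ≠ 0`). -/
theorem tendsto_div_of_hasSum {h : ℝ} (hh : 0 < h) {f : ℍ → ℂ} {c : ℕ → ℂ} (μ : ℕ)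
    (hf : ∀ τ : ℍ, HasSum (fun n : ℕ => c n • 𝕢 h τ ^ n) (f τ)) (hc : ∀ n < μ, c n = 0) :
    Tendsto (fun τ : ℍ => f τ / 𝕢 h τ ^ μ) atImInfty (𝓝 (c μ)) := by
  have hne : ∀ τ : ℍ, 𝕢 h τ ≠ 0 := fun τ => by
    rw [Periodic.qParam]
    exact Complex.exp_ne_zero _
  have key : ∀ τ : ℍ, HasSum (fun n : ℕ => (fun n => c (n + μ)) n • 𝕢 h τ ^ n)
      (f τ / 𝕢 h τ ^ μ) := by
    intro τ
    have h1 := (hasSum_nat_add_iff' (f := fun n : ℕ => c n • 𝕢 h τ ^ n) μ).mpr (hf τ)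
    have h2 : ∑ i ∈ Finset.range μ, c i • 𝕢 h τ ^ i = 0 :=
      Finset.sum_eq_zero fun i hi => by rw [hc i (Finset.mem_range.mp hi), zero_smul]
    rw [h2, sub_zero] at h1
    have h3 := h1.div_const (𝕢 h τ ^ μ)
    refine h3.congr_fun ?_
    intro n
    simp only [smul_eq_mul]
    rw [pow_add, ← mul_assoc, mul_div_assoc, div_self (pow_ne_zero μ (hne τ)), mul_one]
  have := tendsto_of_hasSum hh key
  simpa using this

variable {M : ℕ} [NeZero M]

/-- (LeadB helper) `j ≡ c` for `j < M`. -/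
theorem LeadB_natCast_eq_iff (a : ZMod M) {j : ℕ} (hj : j < M) : ((j : ℕ) : ZMod M) = a ↔ j = a.val := by
  constructor
  · intro h
    rw [← h, ZMod.val_natCast_of_lt hj]
  · intro h
    rw [h, ZMod.natCast_zmod_val]

/-- (LeadB helper) `j ≡ -c` for `j < M`, `c ≠ 0`. -/
theorem LeadB_natCast_eq_neg_iff (a : ZMod M) (ha : a ≠ 0) {j : ℕ} (hj : j < M) :
    ((j : ℕ) : ZMod M) = -a ↔ j = M - a.val := by
  rw [LeadB_natCast_eq_iff (-a) hj, ZMod.neg_val, if_neg ha]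

/-- (LeadB helper) the terms with `n / m < mu v` vanish. -/
theorem LeadB_term_eq_zero {R : Type*} [CommRing R] (z : R) (k : ℕ) (v : Fin 2 → ZMod M)
    (m j : ℕ) (hj : j < mu v) :
    (m : R) ^ (k - 1) *
    ((if ((j : ℕ) : ZMod M) = v 0 then z ^ (m * (v 1).val) else 0) +
      (-1) ^ k * (if ((j : ℕ) : ZMod M) = - v 0 then z ^ (m * (- v 1).val) else 0)) = 0 := by
  have h1 : j < (v 0).val := lt_of_lt_of_le hj (min_le_left _ _)
  have h2 : j < M - (v 0).val := lt_of_lt_of_le hj (min_le_right _ _)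
  have hjM : j < M := lt_of_lt_of_le h2 (Nat.sub_le _ _)
  have hv0 : v 0 ≠ 0 := by
    intro h
    rw [h, ZMod.val_zero] at h1
    exact Nat.not_lt_zero _ h1
  rw [if_neg, if_neg]
  · simp
  · rw [LeadB_natCast_eq_neg_iff _ hv0 hjM]; omega
  · rw [LeadB_natCast_eq_iff _ hjM]; omega

theorem mu_eq_zero_iff (v : Fin 2 → ZMod M) : mu v = 0 ↔ v 0 = 0 := by
  have h := ZMod.val_lt (v 0)
  rw [← ZMod.val_eq_zero (v 0), mu]
  omega

/-- for `1 ≤ j ≤ n < mu v`: `j ≢ ± c`. -/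
theorem qc_eq_zero_of_lt_mu (k : ℕ) (v : Fin 2 → ZMod M) (n : ℕ) (hn : n < mu v) :
    qc M k v n = 0 := by
  rw [qc]
  by_cases hn0 : n = 0
  · rw [if_pos hn0, if_neg]
    intro h
    rw [(mu_eq_zero_iff v).2 h] at hn
    exact Nat.not_lt_zero _ hn
  · rw [if_neg hn0, coef, Finset.sum_eq_zero, mul_zero]
    intro m _
    convert LeadB_term_eq_zero (zeta M) k v m (n / m) (lt_of_le_of_lt (Nat.div_le_self n m) hn)

/-- the generic leading coefficient (`c ≠ 0`, `M` odd): only `m = 1` contributes, and exactly one of the two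
conditions `μ ≡ c`, `μ ≡ -c` holds. -/
theorem coef_mu {R : Type*} [CommRing R] (z : R) (hM : Odd M) (k : ℕ) (v : Fin 2 → ZMod M)
    (hv : v 0 ≠ 0) :
    coef z k v (mu v) =
      if (v 0).val < M - (v 0).val then z ^ (v 1).val else (-1) ^ k * z ^ (- v 1).val := by
  have hc := ZMod.val_lt (v 0)
  have hc0 : (v 0).val ≠ 0 := fun h => hv ((ZMod.val_eq_zero _).1 h)
  have hμ0 : mu v ≠ 0 := fun h => hv ((mu_eq_zero_iff v).1 h)
  have hμM : mu v < M := lt_of_le_of_lt (min_le_left _ _) hc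
  rw [coef, Finset.sum_eq_single 1]
  · rw [Nat.div_one, Nat.cast_one, one_pow, one_mul, one_mul, one_mul]
    obtain ⟨t, ht⟩ := hM
    by_cases h : (v 0).val < M - (v 0).val
    · have hμ : mu v = (v 0).val := min_eq_left h.le
      rw [if_pos h, if_pos ((LeadB_natCast_eq_iff _ hμM).2 hμ), if_neg, mul_zero, add_zero]
      rw [LeadB_natCast_eq_neg_iff _ hv hμM]
      omega
    · have hμ : mu v = M - (v 0).val := min_eq_right (not_lt.1 h)
      rw [if_neg h, if_neg, if_pos ((LeadB_natCast_eq_neg_iff _ hv hμM).2 hμ), zero_add]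
      rw [LeadB_natCast_eq_iff _ hμM]
      omega
  · intro m hm hm1
    have hmd := Nat.dvd_of_mem_divisors hm
    have hm0 : m ≠ 0 := fun h => hμ0 (by rw [h] at hmd; exact Nat.eq_zero_of_zero_dvd hmd)
    convert LeadB_term_eq_zero z k v m (mu v / m)
      (Nat.div_lt_self (Nat.pos_of_ne_zero hμ0) (by omega))
  · intro h
    exact absurd (Nat.one_mem_divisors.2 hμ0) h

/-- `P_k(w) ≠ 0` for a root of unity `w ≠ 1` of odd order (`w ≠ 0`, `w ≠ -1`, `‖1 + w²‖ ≤ 2 < 4 = ‖4w‖`). -/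
theorem Pk_ne_zero (hM : Odd M) {k : ℕ} (hk : k = 3 ∨ k = 4) {w : ℂ} (hw : w ^ M = 1) (hw1 : w ≠ 1) :
    Pk k w ≠ 0 := by
  have hM0 : M ≠ 0 := NeZero.ne M
  have hw0 : w ≠ 0 := by
    rintro rfl
    rw [zero_pow hM0] at hw
    exact zero_ne_one hw
  have h1w : 1 - w ≠ 0 := sub_ne_zero.2 (Ne.symm hw1)
  rcases hk with rfl | rfl
  · rw [Pk, if_pos rfl]
    have h2 : 1 + w ≠ 0 := by
      intro h
      have : w = -1 := by linear_combination h
      rw [this, hM.neg_one_pow] at hw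
      norm_num at hw
    exact div_ne_zero (mul_ne_zero hw0 h2) (pow_ne_zero _ h1w)
  · rw [Pk, if_neg (by norm_num), if_pos rfl]
    have hn : ‖w‖ = 1 := Complex.norm_eq_one_of_pow_eq_one hw hM0
    have h2 : 1 + 4 * w + w ^ 2 ≠ 0 := by
      intro h
      have h3 : 4 * w = -(1 + w ^ 2) := by linear_combination h
      have h4 : ‖4 * w‖ = 4 := by rw [norm_mul, hn]; simp
      have h5 : ‖-(1 + w ^ 2)‖ ≤ 2 := by
        rw [norm_neg]
        refine (norm_add_le _ _).trans ?_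
        rw [norm_pow, hn]
        norm_num
      rw [← h3, h4] at h5
      norm_num at h5
    exact div_ne_zero (mul_ne_zero hw0 h2) (pow_ne_zero _ h1w)

/-- `ζ^{d.val} ≠ 1` for `d ≠ 0`. -/
theorem zeta_pow_val_ne_one (d : ZMod M) (hd : d ≠ 0) : zeta M ^ d.val ≠ 1 := by
  have h := Complex.isPrimitiveRoot_exp M (NeZero.ne M)
  exact h.pow_ne_one_of_pos_of_lt (fun h0 => hd ((ZMod.val_eq_zero d).1 h0)) (ZMod.val_lt d)

/-- **the leading coefficient does not vanish.** -/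
theorem qc_mu_ne_zero (hM : Odd M) {k : ℕ} (hk : k = 3 ∨ k = 4) (v : Fin 2 → ZMod M) (hv : v ≠ 0) :
    qc M k v (mu v) ≠ 0 := by
  have hz : zeta M ≠ 0 := Complex.exp_ne_zero _
  have hzM : zeta M ^ M = 1 := (Complex.isPrimitiveRoot_exp M (NeZero.ne M)).pow_eq_one
  by_cases hv0 : v 0 = 0
  · have hv1 : v 1 ≠ 0 := by
      intro hv1
      apply hv
      funext i
      fin_cases i
      · exact hv0
      · exact hv1
    rw [(mu_eq_zero_iff v).2 hv0, qc, if_pos rfl, if_pos hv0, cst_eq hk _ hv1]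
    refine mul_ne_zero (K_ne_zero k) (Pk_ne_zero hM hk ?_ (zeta_pow_val_ne_one _ hv1))
    rw [← pow_mul, mul_comm, pow_mul, hzM, one_pow]
  · rw [qc, if_neg (fun h => hv0 ((mu_eq_zero_iff v).1 h)), coef_mu _ hM k v hv0]
    refine mul_ne_zero (K_ne_zero k) ?_
    split_ifs
    · exact pow_ne_zero _ hz
    · exact mul_ne_zero (pow_ne_zero _ (by norm_num)) (pow_ne_zero _ hz)

/-- **the leading term.** -/
theorem tendsto_G_div {k : ℕ} (hk : 3 ≤ k) (v : Fin 2 → ZMod M) :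
    Tendsto (fun τ : ℍ => G M k v τ / 𝕢 (M : ℝ) τ ^ mu v) atImInfty (𝓝 (qc M k v (mu v))) := by
  exact tendsto_div_of_hasSum (h := (M : ℝ)) (Nat.cast_pos.2 (Nat.pos_of_ne_zero (NeZero.ne M)))
    (mu v) (hasSum_G hk v) (fun n hn => qc_eq_zero_of_lt_mu k v n hn)

/-- the quotient `G_{4,v} / G_{3,v}` has a limit at `i∞`. -/
theorem tendsto_G4_div_G3 (hM : Odd M) (v : Fin 2 → ZMod M) (hv : v ≠ 0) :
    Tendsto (fun τ : ℍ => G M 4 v τ / G M 3 v τ) atImInfty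
      (𝓝 (qc M 4 v (mu v) / qc M 3 v (mu v))) := by
  have h4 := tendsto_G_div (M := M) (k := 4) (by norm_num) v
  have h3 := tendsto_G_div (M := M) (k := 3) (by norm_num) v
  have h := h4.div h3 (qc_mu_ne_zero hM (Or.inl rfl) v hv)
  refine h.congr fun τ => ?_
  have hq : 𝕢 (M : ℝ) τ ^ mu v ≠ 0 := pow_ne_zero _ (Complex.exp_ne_zero _)
  exact div_div_div_cancel_right₀ hq _ _

end

end Fermat.Agent.S48.EIS
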