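import Fermat.Agent.S48.EIS.Lead

/-!
# S48 / EIS : `G_{3,v}` has no zero on `ℍ` (`M` odd, `v ≠ 0`)
TASKS S48/EIS-NonVanA (`tendsto_disc_div`, `ne_zero_of_levelOne`: general, Mathlib + `MkMF.lean` only),
S48/EIS-NonVanB (`card_nz`, `sum_mu`), S48/EIS-NonVanC (the rest).

`P = ∏_{v ≠ 0} G_{3,v}` is of level one and weight `3 (M² - 1) = 12 n`, `n = h (h + 1)`, `M = 2 h + 1`; its order at `i∞` is
`(1/M) ∑_v mu v = n`.  So `P / Δ^n` is a holomorphic modular form of weight `0` and level one with a nonzero limit at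
`i∞`: a nonzero constant.
-/

set_option autoImplicit false

open UpperHalfPlane hiding I
open EisensteinSeries Complex Filter Topology Function Matrix
open scoped Real Nat MatrixGroups Manifold ModularForm

namespace Fermat.Agent.S48.EIS

noncomputable section

local notation "𝕢" => Periodic.qParam

/-- `Δ / q → 1` (`ModularForm.discriminant_eq_q_prod`, `ModularForm.tendsto_atImInfty_tprod_one_sub_eta_q_pow`). -/
theorem tendsto_disc_div :
    Tendsto (fun τ : ℍ => ModularForm.discriminant τ / 𝕢 (1 : ℝ) τ) atImInfty (𝓝 1) := by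
  refine ModularForm.tendsto_atImInfty_tprod_one_sub_eta_q_pow.congr fun τ => ?_
  have hq : 𝕢 (1 : ℝ) τ ≠ 0 := by simp [Periodic.qParam]
  rw [ModularForm.discriminant_eq_q_prod, mul_div_cancel_left₀ _ hq]

private theorem disc_pow_slash (n : ℕ) (γ : SL(2, ℤ)) :
    (ModularForm.discriminant ^ n : ℍ → ℂ) ∣[(12 * n : ℤ)] γ = ModularForm.discriminant ^ n := by
  have h1 : (ModularForm.discriminant : ℍ → ℂ) ∣[(12 : ℤ)] γ = ModularForm.discriminant :=
    CuspForm.discriminant.slash_action_eq' _ ⟨γ, rfl⟩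
  induction n with
  | zero =>
    ext τ
    simp [ModularForm.SL_slash_apply]
  | succ n ih =>
    have e : ((12 * ((n + 1 : ℕ) : ℤ)) : ℤ) = 12 * (n : ℤ) + 12 := by push_cast; ring
    rw [e, pow_succ, ModularForm.mul_slash_SL2, ih, h1]

/-- **General principle.**  A holomorphic `F`, of weight `12 n` for `SL₂(ℤ)`, with `F / q^n → c ≠ 0` at `i∞`, has no zero.
Proof: `Q = F / Δ^n`: `MDiff` (`UpperHalfPlane.mdifferentiable_iff`, `DifferentiableOn.div`, `discriminant_ne_zero`,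
`CuspForm.discriminant.holo'`); `Q ∣[0] γ = Q` (`ModularForm.div_slash_SL2` with `12 n - 12 n`; `Δ^n ∣[12 n] γ = Δ^n`:
`slash_pow` as in `ES/An/MkMF.lean`, or pointwise); `Q = (F/q^n) / (Δ/q)^n → c`; so `Q` is a modular form
(`exists_modularForm_levelOne`, `isBoundedAtImInfty_of_tendsto`), constant by
`ModularFormClass.levelOne_weight_zero_const`, and the constant is `c` (`tendsto_nhds_unique`, `atImInfty.NeBot`). -/
theorem ne_zero_of_levelOne (n : ℕ) (F : ℍ → ℂ) (hF : MDiff F)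
    (hs : ∀ γ : SL(2, ℤ), F ∣[(12 * n : ℤ)] γ = F) (c : ℂ) (hc : c ≠ 0)
    (ht : Tendsto (fun τ : ℍ => F τ / 𝕢 (1 : ℝ) τ ^ n) atImInfty (𝓝 c)) (τ : ℍ) : F τ ≠ 0 := by
  set Q : ℍ → ℂ := F / (ModularForm.discriminant ^ n : ℍ → ℂ) with hQ
  have hD : MDiff (ModularForm.discriminant : ℍ → ℂ) := CuspForm.discriminant.holo'
  have h1 : MDiff Q := by
    rw [UpperHalfPlane.mdifferentiable_iff] at hF hD ⊢
    have : (Q ∘ ofComplex) = fun z => (F ∘ ofComplex) z / ((ModularForm.discriminant ∘ ofComplex) z) ^ n := by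
      funext z; simp [hQ]
    rw [this]
    refine DifferentiableOn.div hF (hD.pow n) fun z _ => ?_
    exact pow_ne_zero _ (ModularForm.discriminant_ne_zero _)
  have h2 : ∀ γ : SL(2, ℤ), Q ∣[(0 : ℤ)] γ = Q := by
    intro γ
    have := ModularForm.div_slash_SL2 (12 * n : ℤ) (12 * n : ℤ) γ F (ModularForm.discriminant ^ n)
    rw [sub_self, hs γ, disc_pow_slash] at this
    exact this
  have h3 : Tendsto Q atImInfty (𝓝 c) := by
    have h := ht.div (tendsto_disc_div.pow n) (by simp)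
    simp only [one_pow, div_one] at h
    refine h.congr fun σ => ?_
    have hq : 𝕢 (1 : ℝ) σ ≠ 0 := by simp [Periodic.qParam]
    have hd := ModularForm.discriminant_ne_zero σ
    simp only [hQ, Pi.div_apply, Pi.pow_apply, div_pow]
    field_simp
  obtain ⟨f, hf⟩ := exists_modularForm_levelOne 0 Q h1 h2 (isBoundedAtImInfty_of_tendsto h3)
  obtain ⟨c', hc'⟩ := ModularFormClass.levelOne_weight_zero_const f
  rw [hf] at hc'
  have h4 : c' = c := by
    rw [hc'] at h3
    exact tendsto_nhds_unique tendsto_const_nhds h3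
  intro h0
  have h5 : Q τ = c := by rw [hc', h4]; rfl
  rw [hQ, Pi.div_apply, h0, zero_div] at h5
  exact hc h5.symm


variable (M : ℕ) [NeZero M]

open Classical in
/-- the nonzero vectors. -/
def nz : Finset (Fin 2 → ZMod M) := Finset.univ.erase 0

/-- the product of all the `G_{3,v}`, `v ≠ 0`. -/
def PP : ℍ → ℂ := ∏ v ∈ nz M, G M 3 v

variable {M}

theorem card_nz (h : ℕ) (hM : M = 2 * h + 1) : (nz M).card = 4 * (h * (h + 1)) := by
  classical
  unfold nz
  rw [Finset.card_erase_of_mem (Finset.mem_univ _), Finset.card_univ, Fintype.card_fun, ZMod.card,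
    Fintype.card_fin, hM]
  have : (2 * h + 1) ^ 2 = 4 * (h * (h + 1)) + 1 := by ring
  omega

/-- auxiliary: `∑_{i < 2h+1} min(i, 2h+1-i) = h (h+1)`. -/
private theorem sum_min_aux (h : ℕ) :
    ∑ i ∈ Finset.range (2 * h + 1), min i (2 * h + 1 - i) = h * (h + 1) := by
  have e : 2 * h + 1 = (h + 1) + h := by ring
  rw [e, Finset.sum_range_add]
  have h1 : ∑ x ∈ Finset.range (h + 1), min x (h + 1 + h - x) = ∑ x ∈ Finset.range (h + 1), x := by
    refine Finset.sum_congr rfl fun x hx => ?_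
    have := Finset.mem_range.mp hx
    omega
  have h2 : ∑ x ∈ Finset.range h, min (h + 1 + x) (h + 1 + h - (h + 1 + x)) =
      ∑ x ∈ Finset.range h, (x + 1) := by
    rw [← Finset.sum_range_reflect (fun x => x + 1) h]
    refine Finset.sum_congr rfl fun x hx => ?_
    have := Finset.mem_range.mp hx
    omega
  rw [h1, h2, Finset.sum_range_succ', Finset.sum_add_distrib]
  have h3 := Finset.sum_range_id_mul_two h
  simp only [Finset.sum_const, Finset.card_range, smul_eq_mul, mul_one, add_zero]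
  have h4 : h * (h + 1) = h * (h - 1) + 2 * h := by
    cases h with
    | zero => rfl
    | succ n => simp only [Nat.add_sub_cancel]; ring
  omega

/-- `∑_{v ≠ 0} mu v = M ∑_{c < M} min(c, M - c) = M h (h + 1)`. -/
theorem sum_mu (h : ℕ) (hM : M = 2 * h + 1) : ∑ v ∈ nz M, mu v = M * (h * (h + 1)) := by
  classical
  unfold nz
  have h0 : mu (0 : Fin 2 → ZMod M) = 0 := by simp [mu]
  rw [Finset.sum_erase _ h0, ← (finTwoArrowEquiv (ZMod M)).symm.sum_comp, Fintype.sum_prod_type]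
  have h1 : ∀ c d : ZMod M, mu ((finTwoArrowEquiv (ZMod M)).symm (c, d)) = min c.val (M - c.val) := by
    intro c d
    simp [mu, finTwoArrowEquiv]
  simp only [h1, Finset.sum_const, Finset.card_univ, ZMod.card, smul_eq_mul]
  rw [← Finset.mul_sum]
  congr 1
  have h2 : ∑ c : ZMod M, min c.val (M - c.val) = ∑ i ∈ Finset.range M, min i (M - i) := by
    refine Finset.sum_nbij' (fun c => c.val) (fun i => (i : ZMod M)) ?_ ?_ ?_ ?_ ?_
    · intro c _
      exact Finset.mem_range.mpr (ZMod.val_lt c)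
    · intro i _
      exact Finset.mem_univ _
    · intro c _
      exact ZMod.natCast_zmod_val c
    · intro i hi
      exact ZMod.val_natCast_of_lt (Finset.mem_range.mp hi)
    · intro c _
      rfl
  rw [h2]
  subst hM
  exact sum_min_aux h

/-- `v ↦ v γ` as a permutation of `(ℤ/M)²`. -/
def NonVanC_perm (γ : SL(2, ℤ)) : Equiv.Perm (Fin 2 → ZMod M) where
  toFun v := v ᵥ* (γ : Matrix (Fin 2) (Fin 2) (ZMod M))
  invFun v := v ᵥ* (↑(γ⁻¹) : Matrix (Fin 2) (Fin 2) (ZMod M))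
  left_inv v := Basic_vecMul_vecMul_inv v γ
  right_inv v := Basic_vecMul_inv_vecMul v γ

theorem NonVanC_prod_perm (γ : SL(2, ℤ)) (f : (Fin 2 → ZMod M) → ℍ → ℂ) :
    ∏ v ∈ nz M, f (v ᵥ* (γ : Matrix (Fin 2) (Fin 2) (ZMod M))) = ∏ v ∈ nz M, f v := by
  classical
  refine Finset.prod_equiv (NonVanC_perm (M := M) γ) ?_ (fun v _ => rfl)
  intro v
  simp only [nz, Finset.mem_erase, Finset.mem_univ, and_true, ne_eq]
  have h0 : NonVanC_perm (M := M) γ 0 = 0 := by
    show (0 : Fin 2 → ZMod M) ᵥ* _ = 0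
    exact Matrix.zero_vecMul _
  rw [← h0, (NonVanC_perm (M := M) γ).injective.eq_iff, h0]

/-- `v ↦ v γ` permutes the nonzero vectors (`ModularForm.prod_slash`, `G_slash`, `Finset.prod_bij`/`Equiv.prod_comp`). -/
theorem PP_slash (h : ℕ) (hM : M = 2 * h + 1) (γ : SL(2, ℤ)) :
    PP M ∣[(12 * (h * (h + 1) : ℕ) : ℤ)] γ = PP M := by
  have hw : (12 * (h * (h + 1) : ℕ) : ℤ) = (3 : ℤ) * ((nz M).card : ℤ) := by
    rw [card_nz h hM]
    push_cast
    ring
  rw [hw, PP, ModularForm.SL_slash, ModularForm.prod_slash]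
  have hdet : |((γ : GL (Fin 2) ℝ).det.val)| = 1 := by
    simp
  rw [hdet, _root_.one_zpow, one_smul]
  have : ∀ v ∈ nz M, (G M 3 v ∣[(3 : ℤ)] (γ : GL (Fin 2) ℝ))
      = G M 3 (v ᵥ* (γ : Matrix (Fin 2) (Fin 2) (ZMod M))) := by
    intro v _
    rw [← ModularForm.SL_slash]
    exact G_slash 3 v γ
  rw [Finset.prod_congr rfl this]
  exact NonVanC_prod_perm γ (fun v => G M 3 v)

theorem PP_mdiff : MDiff (PP M) := by
  unfold PP
  exact MDifferentiable.prod (t := nz M) (f := fun v => G M 3 v)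
    (fun v _ => G_mdiff (le_refl 3) v)

theorem NonVanC_qParam_pow (τ : ℍ) : 𝕢 (M : ℝ) τ ^ M = 𝕢 (1 : ℝ) τ := by
  have hM : (M : ℂ) ≠ 0 := Nat.cast_ne_zero.mpr (NeZero.ne M)
  rw [Periodic.qParam, Periodic.qParam, ← Complex.exp_nat_mul]
  congr 1
  push_cast
  field_simp

/-- (`tendsto_finset_prod`, `tendsto_G_div`, `Finset.prod_pow_eq_pow_sum`, `sum_mu`, `𝕢 M τ ^ M = 𝕢 1 τ`.) -/
theorem tendsto_PP_div (h : ℕ) (hM : M = 2 * h + 1) :
    Tendsto (fun τ : ℍ => PP M τ / 𝕢 (1 : ℝ) τ ^ (h * (h + 1))) atImInfty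
      (𝓝 (∏ v ∈ nz M, qc M 3 v (mu v))) := by
  have h1 : Tendsto (fun τ : ℍ => ∏ v ∈ nz M, (G M 3 v τ / 𝕢 (M : ℝ) τ ^ mu v)) atImInfty
      (𝓝 (∏ v ∈ nz M, qc M 3 v (mu v))) :=
    tendsto_finsetProd _ (fun v _ => tendsto_G_div (le_refl 3) v)
  refine h1.congr fun τ => ?_
  rw [Finset.prod_div_distrib, Finset.prod_pow_eq_pow_sum, sum_mu h hM, pow_mul,
    NonVanC_qParam_pow, PP, Finset.prod_apply]

/-- **`G_{3,v}` has no zero on `ℍ`.** -/
theorem G3_ne_zero (hM : Odd M) (v : Fin 2 → ZMod M) (hv : v ≠ 0) (τ : ℍ) : G M 3 v τ ≠ 0 := by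
  classical
  obtain ⟨h, hh⟩ := hM
  have hP : PP M τ ≠ 0 :=
    ne_zero_of_levelOne (h * (h + 1)) (PP M) PP_mdiff (fun γ => PP_slash h hh γ)
      (∏ v ∈ nz M, qc M 3 v (mu v))
      (Finset.prod_ne_zero_iff.mpr fun w hw =>
        qc_mu_ne_zero ⟨h, hh⟩ (Or.inl rfl) w (Finset.ne_of_mem_erase hw))
      (tendsto_PP_div h hh) τ
  rw [PP, Finset.prod_apply, Finset.prod_ne_zero_iff] at hP
  exact hP v (Finset.mem_erase.mpr ⟨hv, Finset.mem_univ v⟩)

end

end Fermat.Agent.S48.EIS
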