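import Fermat.Agent.S48.EIS.Inner

/-!
# S48 / EIS : the `q_M`-expansion of `G_{k,v}`, any `k ≥ 3`
TASKS S48/EIS-QExpA (`G_eq_parts`, `upper_neg`), S48/EIS-QExpB (`hasSum_upper`), S48/EIS-QExpC (the rest).

PLAN.  Split `ℤ² ∋ w` according to the sign of `w₀` (`Summable.tsum_prod`, `finTwoArrowEquiv`, as in Mathlib
`tsum_eisSummand_eq_tsum_sigma_mul_cexp_pow`):  `G_{k,v} = [c = 0] cst_k(d) + U_{k,v} + (-1)^k U_{k,-v}`, where
`U_{k,v}(τ) = ∑_{c' ≥ 1, c' ≡ c} ∑_{n ≡ d} (c' τ + n)^{-k}`; the part `w₀ < 0` is `(-1)^k U_{k,-v}` by `w ↦ -w`.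
By `tsum_class_eq`, `U_{k,v} = K_k ∑_{c' ≥ 1, c' ≡ c} ∑_{m ≥ 1} m^{k-1} ζ^{m d} q_M^{m c'}`; collect the terms with `m c' = n`
(`sigmaAntidiagonalEquivProd`, as in Mathlib `tsum_prod_pow_eq_tsum_sigma`).
-/

set_option autoImplicit false

open UpperHalfPlane hiding I
open EisensteinSeries Complex Filter Topology Function
open scoped Real Nat

namespace Fermat.Agent.S48.EIS

noncomputable section

local notation "𝕢" => Periodic.qParam

variable {M : ℕ} [NeZero M] {k : ℕ}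

open Classical in
/-- the part `w₀ > 0` of `G_{k,v}`. -/
def upper (M : ℕ) (k : ℕ) (v : Fin 2 → ZMod M) (τ : ℍ) : ℂ :=
  ∑' c : ℕ+, if ((c : ℕ) : ZMod M) = v 0 then
    (∑' n : ℤ, if (n : ZMod M) = v 1 then ((((c : ℕ) : ℂ) * τ + n) ^ k)⁻¹ else 0) else 0

open Classical in
/-- the general term of `G_{k,v}` on `ℤ × ℤ`. -/
def partsTerm (M : ℕ) (k : ℕ) (v : Fin 2 → ZMod M) (τ : ℍ) (x : ℤ × ℤ) : ℂ :=
  if (x.1 : ZMod M) = v 0 then
    (if (x.2 : ZMod M) = v 1 then ((((x.1 : ℤ) : ℂ) * τ + x.2) ^ k)⁻¹ else 0) else 0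

omit [NeZero M] in
theorem partsTerm_eq (v : Fin 2 → ZMod M) (τ : ℍ) (w : Fin 2 → ℤ) :
    ind M v w * eisSummand k w τ = partsTerm M k v τ (finTwoArrowEquiv ℤ w) := by
  classical
  have e : (redv M w = v) ↔ ((w 0 : ZMod M) = v 0 ∧ (w 1 : ZMod M) = v 1) := by
    constructor
    · rintro rfl; exact ⟨rfl, rfl⟩
    · rintro ⟨h0, h1⟩
      funext i
      fin_cases i
      · exact h0
      · exact h1
  have e0 : finTwoArrowEquiv ℤ w = (w 0, w 1) := rfl
  rw [e0]
  unfold ind partsTerm eisSummand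
  show _ = if (w 0 : ZMod M) = v 0 then
    (if (w 1 : ZMod M) = v 1 then ((((w 0 : ℤ) : ℂ) * τ + (w 1 : ℤ)) ^ k)⁻¹ else 0) else 0
  by_cases h0 : (w 0 : ZMod M) = v 0
  · by_cases h1 : (w 1 : ZMod M) = v 1
    · rw [if_pos (e.mpr ⟨h0, h1⟩), if_pos h0, if_pos h1, one_mul, zpow_neg, zpow_natCast]
    · rw [if_neg (fun h => h1 (e.mp h).2), if_pos h0, if_neg h1, zero_mul]
  · rw [if_neg (fun h => h0 (e.mp h).1), if_neg h0, zero_mul]

omit [NeZero M] in
theorem summable_partsTerm (hk : 3 ≤ k) (v : Fin 2 → ZMod M) (τ : ℍ) :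
    Summable (partsTerm M k v τ) := by
  have h := summable_term hk (norm_ind_le v) τ
  simp only [partsTerm_eq] at h
  exact (Equiv.summable_iff (finTwoArrowEquiv ℤ)).mp h

/-- splitting according to the sign of `w₀`. -/
theorem G_eq_parts (hk : 3 ≤ k) (v : Fin 2 → ZMod M) (τ : ℍ) :
    G M k v τ = (if v 0 = 0 then cst M k (v 1) else 0) + upper M k v τ + (-1) ^ k * upper M k (-v) τ := by
  classical
  have hs := summable_partsTerm hk v τ
  have e1 : G M k v τ = ∑' x : ℤ × ℤ, partsTerm M k v τ x := by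
    unfold G Gc
    simp only [partsTerm_eq]
    exact (finTwoArrowEquiv ℤ).tsum_eq (partsTerm M k v τ)
  rw [e1, hs.tsum_prod, tsum_int_eq_zero_add_tsum_pnat hs.prod]
  congr 1
  · congr 1
    · -- the term `w₀ = 0`
      unfold partsTerm cst
      simp only [Int.cast_zero, zero_mul, zero_add]
      by_cases h0 : v 0 = 0
      · rw [if_pos h0]
        simp only [h0, if_true]
      · rw [if_neg h0]
        simp only [if_neg (Ne.symm h0), tsum_zero]
    · -- `w₀ > 0`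
      unfold upper partsTerm
      refine tsum_congr fun c => ?_
      simp only [Int.cast_natCast]
      by_cases h0 : ((c : ℕ) : ZMod M) = v 0
      · simp only [if_pos h0]
      · simp only [if_neg h0, tsum_zero]
  · -- `w₀ < 0`
    unfold upper partsTerm
    rw [← tsum_mul_left]
    refine tsum_congr fun c => ?_
    simp only [Int.cast_neg, Int.cast_natCast, Pi.neg_apply]
    have hiff : (-((c : ℕ) : ZMod M) = v 0) ↔ (((c : ℕ) : ZMod M) = - v 0) := neg_eq_iff_eq_neg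
    by_cases h0 : ((c : ℕ) : ZMod M) = - v 0
    · simp only [if_pos h0, if_pos (hiff.mpr h0)]
      rw [← tsum_mul_left, ← (Equiv.neg ℤ).tsum_eq]
      refine tsum_congr fun n => ?_
      simp only [Equiv.neg_apply, Int.cast_neg]
      have hiff' : (-(n : ZMod M) = v 1) ↔ ((n : ZMod M) = - v 1) := neg_eq_iff_eq_neg
      by_cases h1 : (n : ZMod M) = - v 1
      · rw [if_pos h1, if_pos (hiff'.mpr h1)]
        have : -((c : ℕ) : ℂ) * (τ : ℂ) + -(n : ℂ) = -(((c : ℕ) : ℂ) * τ + n) := by ring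
        rw [this, neg_pow, mul_inv]
        congr 1
        rcases neg_one_pow_eq_or ℂ k with h | h <;> rw [h] <;> norm_num
      · rw [if_neg h1, if_neg (fun h => h1 (hiff'.mp h)), mul_zero]
    · simp only [if_neg h0, if_neg (fun h => h0 (hiff.mp h)), tsum_zero, mul_zero]

open Classical in
/-- one half of the coefficient. -/
def coefU {R : Type*} [CommRing R] (z : R) (k : ℕ) (v : Fin 2 → ZMod M) (n : ℕ) : R :=
  ∑ m ∈ n.divisors, (m : R) ^ (k - 1) *
    (if ((n / m : ℕ) : ZMod M) = v 0 then z ^ (m * (v 1).val) else 0)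

theorem coef_eq_coefU {R : Type*} [CommRing R] (z : R) (k : ℕ) (v : Fin 2 → ZMod M) (n : ℕ) :
    coef z k v n = coefU z k v n + (-1) ^ k * coefU z k (-v) n := by
  unfold coef coefU
  rw [Finset.mul_sum, ← Finset.sum_add_distrib]
  refine Finset.sum_congr rfl fun m _ => ?_
  simp only [Pi.neg_apply]
  ring

/-- the expansion of the upper part. -/
theorem hasSum_upper (hk : 3 ≤ k) (v : Fin 2 → ZMod M) (τ : ℍ) :
    HasSum (fun n : ℕ => (K M k * coefU (zeta M) k v (n + 1)) * 𝕢 (M : ℝ) τ ^ (n + 1))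
      (upper M k v τ) := by
  classical
  set q := 𝕢 (M : ℝ) τ with hq
  set ζ := zeta M with hζdef
  let F : ℕ+ × ℕ+ → ℂ := fun x => if ((x.1 : ℕ) : ZMod M) = v 0 then
      ((x.2 : ℕ) : ℂ) ^ (k - 1) * ζ ^ ((x.2 : ℕ) * (v 1).val) * q ^ ((x.2 : ℕ) * (x.1 : ℕ)) else 0
  have hζ : ‖ζ‖ = 1 := Complex.norm_eq_one_of_pow_eq_one (zeta_pow_M (M := M)) (NeZero.ne M)
  have hF : Summable F := by
    refine Summable.of_norm_bounded (summable_double (M := M) (k - 1) τ) ?_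
    intro x
    simp only [F]
    split_ifs
    · simp [hζ, hq]
    · simp
  have h1 : upper M k v τ = K M k * ∑' x, F x := by
    rw [hF.tsum_prod, ← tsum_mul_left]
    unfold upper
    refine tsum_congr fun c => ?_
    split_ifs with h
    · rw [tsum_class_eq (by omega) c c.pos]
      simp only [F, if_pos h]
      rfl
    · simp [F, h]
  rw [h1]
  have h2 : HasSum (fun n : ℕ+ => coefU ζ k v n * q ^ (n : ℕ)) (∑' x, F x) := by
    have := (sigmaAntidiagonalEquivProd.hasSum_iff.mpr hF.hasSum).sigma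
      (fun n => (hasSum_fintype _))
    convert this using 2 with n
    have h5 : ∀ b : (n : ℕ).divisorsAntidiagonal, (F ∘ sigmaAntidiagonalEquivProd) ⟨n, b⟩ =
        (fun x : ℕ × ℕ => if ((x.1 : ℕ) : ZMod M) = v 0 then
          ((x.2 : ℕ) : ℂ) ^ (k - 1) * ζ ^ ((x.2 : ℕ) * (v 1).val) * q ^ ((x.2 : ℕ) * (x.1 : ℕ)) else 0) b.1 := by
      intro b
      rfl
    rw [Finset.sum_congr rfl fun b _ => h5 b, Finset.sum_coe_sort (n : ℕ).divisorsAntidiagonal
      (fun x : ℕ × ℕ => if ((x.1 : ℕ) : ZMod M) = v 0 then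
          ((x.2 : ℕ) : ℂ) ^ (k - 1) * ζ ^ ((x.2 : ℕ) * (v 1).val) * q ^ ((x.2 : ℕ) * (x.1 : ℕ)) else 0),
      Nat.sum_divisorsAntidiagonal' (fun x y : ℕ => if ((x : ℕ) : ZMod M) = v 0 then
          ((y : ℕ) : ℂ) ^ (k - 1) * ζ ^ ((y : ℕ) * (v 1).val) * q ^ ((y : ℕ) * (x : ℕ)) else 0)]
    unfold coefU
    rw [Finset.sum_mul]
    refine Finset.sum_congr rfl fun i hi => ?_
    rw [Nat.mul_div_cancel' (Nat.dvd_of_mem_divisors hi)]
    split_ifs <;> simp
  have h3 := (Equiv.pnatEquivNat.symm.hasSum_iff.mpr h2).mul_left (K M k)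
  have h4 : (fun n : ℕ => (K M k * coefU ζ k v (n + 1)) * q ^ (n + 1)) =
      fun i => K M k * ((fun n : ℕ+ => coefU ζ k v n * q ^ (n : ℕ)) ∘ Equiv.pnatEquivNat.symm) i := by
    funext n
    simp [mul_assoc]
  rw [h4]
  exact h3

/-- the coefficients of `G_{k,v}`, any `k`. -/
def qc (M : ℕ) (k : ℕ) (v : Fin 2 → ZMod M) (n : ℕ) : ℂ :=
  if n = 0 then (if v 0 = 0 then cst M k (v 1) else 0) else K M k * coef (zeta M) k v n

/-- **the `q_M`-expansion of `G_{k,v}`.** -/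
theorem hasSum_G (hk : 3 ≤ k) (v : Fin 2 → ZMod M) (τ : ℍ) :
    HasSum (fun n : ℕ => qc M k v n • 𝕢 (M : ℝ) τ ^ n) (G M k v τ) := by
  have h1 := hasSum_upper hk v τ
  have h2 := (hasSum_upper hk (-v) τ).mul_left ((-1 : ℂ) ^ k)
  have h3 := h1.add h2
  have h4 : HasSum (fun n : ℕ => qc M k v (n + 1) • 𝕢 (M : ℝ) τ ^ (n + 1))
      (upper M k v τ + (-1) ^ k * upper M k (-v) τ) := by
    convert h3 using 2 with n
    rw [qc, if_neg (Nat.succ_ne_zero n), coef_eq_coefU, smul_eq_mul]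
    ring
  have h5 := (hasSum_nat_add_iff (f := fun n : ℕ => qc M k v n • 𝕢 (M : ℝ) τ ^ n) 1).mp h4
  have h6 : G M k v τ = upper M k v τ + (-1) ^ k * upper M k (-v) τ +
      ∑ i ∈ Finset.range 1, qc M k v i • 𝕢 (M : ℝ) τ ^ i := by
    rw [G_eq_parts hk v τ, Finset.sum_range_one, qc, if_pos rfl, pow_zero, smul_eq_mul, mul_one]
    ring
  rw [h6]
  exact h5

/-- compatibility of the coefficients with ring homomorphisms. -/
theorem map_coef {R S : Type*} [CommRing R] [CommRing S] (f : R →+* S) (z : R) (k : ℕ)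
    (v : Fin 2 → ZMod M) (n : ℕ) : f (coef z k v n) = coef (f z) k v n := by
  unfold coef
  rw [map_sum]
  refine Finset.sum_congr rfl fun m _ => ?_
  rw [map_mul, map_add, map_mul, map_pow, map_pow, map_natCast, map_neg, map_one, apply_ite f,
    apply_ite f, map_pow, map_pow, map_zero]

theorem map_coef₀ {R S : Type*} [CommRing R] [CommRing S] (f : R →+* S) (z : R) (k : ℕ)
    (a : ZMod M) (n : ℕ) : f (coef₀ z k a n) = coef₀ (f z) k a n := by
  unfold coef₀
  rw [map_sum]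
  refine Finset.sum_congr rfl fun m _ => ?_
  simp only [map_mul, map_add, map_pow, map_natCast, map_neg, map_one]

/-- for `v = (0,a)` only the exponents divisible by `M` occur. -/
theorem coef_zero_of_not_dvd {R : Type*} [CommRing R] (z : R) (k : ℕ) (a : ZMod M) (n : ℕ)
    (hn : ¬ M ∣ n) : coef z k ![0, a] n = 0 := by
  unfold coef
  refine Finset.sum_eq_zero fun m hm => ?_
  have hmn : m ∣ n := Nat.dvd_of_mem_divisors hm
  have h0 : ((n / m : ℕ) : ZMod M) ≠ 0 := by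
    rw [Ne, ZMod.natCast_eq_zero_iff]
    exact fun h => hn (h.trans (Nat.div_dvd_of_dvd hmn))
  simp [h0]

theorem coef_zero_mul {R : Type*} [CommRing R] (z : R) (k : ℕ) (a : ZMod M) (n : ℕ) (hn : 0 < n) :
    coef z k ![0, a] (M * n) = coef₀ z k a n := by
  have hM : 0 < M := Nat.pos_of_ne_zero (NeZero.ne M)
  unfold coef coef₀
  have hsub : n.divisors ⊆ (M * n).divisors :=
    Nat.divisors_subset_of_dvd (by positivity) (Dvd.intro_left M rfl)
  rw [← Finset.sum_subset hsub]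
  · refine Finset.sum_congr rfl fun m hm => ?_
    have hmn : m ∣ n := Nat.dvd_of_mem_divisors hm
    have h0 : ((M * n / m : ℕ) : ZMod M) = 0 := by
      rw [ZMod.natCast_eq_zero_iff, Nat.mul_div_assoc _ hmn]
      exact Dvd.intro _ rfl
    simp [h0]
  · intro m hm hm'
    have hmn : m ∣ M * n := Nat.dvd_of_mem_divisors hm
    have h0 : ((M * n / m : ℕ) : ZMod M) ≠ 0 := by
      rw [Ne, ZMod.natCast_eq_zero_iff]
      rintro ⟨t, ht⟩
      apply hm'
      rw [Nat.mem_divisors]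
      refine ⟨⟨t, ?_⟩, hn.ne'⟩
      have h1 : M * n = m * (M * t) := by rw [← ht, Nat.mul_div_cancel' hmn]
      have h2 : M * n = M * (m * t) := by rw [h1]; ring
      exact Nat.eq_of_mul_eq_mul_left hM h2
    simp [h0]

/-- the coefficients (in `q`) of `G_{k,(0,a)}`. -/
def qc₀ (M : ℕ) (k : ℕ) (a : ZMod M) (n : ℕ) : ℂ :=
  if n = 0 then cst M k a else K M k * coef₀ (zeta M) k a n

/-- **the `q`-expansion of `G_{k,(0,a)}`** (from `hasSum_G`: `Function.Injective.hasSum_iff` for `n ↦ M n`,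
`𝕢 M τ ^ (M n) = 𝕢 1 τ ^ n`). -/
theorem hasSum_G₀ (hk : 3 ≤ k) (a : ZMod M) (τ : ℍ) :
    HasSum (fun n : ℕ => qc₀ M k a n • 𝕢 (1 : ℝ) τ ^ n) (G M k ![0, a] τ) := by
  have hM : 0 < M := Nat.pos_of_ne_zero (NeZero.ne M)
  have h1 := hasSum_G hk ![0, a] τ
  have hinj : Function.Injective (fun n : ℕ => M * n) := fun x y h =>
    Nat.eq_of_mul_eq_mul_left hM h
  have hoff : ∀ x ∉ Set.range (fun n : ℕ => M * n),
      (fun n : ℕ => qc M k ![0, a] n • 𝕢 (M : ℝ) τ ^ n) x = 0 := by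
    intro x hx
    have hx' : ¬ M ∣ x := fun ⟨t, ht⟩ => hx ⟨t, ht.symm⟩
    have hx0 : x ≠ 0 := by
      rintro rfl
      exact hx' (dvd_zero M)
    show qc M k ![0, a] x • 𝕢 (M : ℝ) τ ^ x = 0
    rw [qc, if_neg hx0, coef_zero_of_not_dvd _ _ _ _ hx', mul_zero, zero_smul]
  have h2 := (hinj.hasSum_iff hoff).mpr h1
  convert h2 using 2 with n
  have hq : 𝕢 (M : ℝ) τ ^ M = 𝕢 (1 : ℝ) τ := by
    have hMC : (M : ℂ) ≠ 0 := Nat.cast_ne_zero.mpr hM.ne'
    rw [Periodic.qParam, Periodic.qParam, ← Complex.exp_nat_mul]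
    congr 1
    push_cast
    field_simp
  show _ = qc M k ![0, a] (M * n) • 𝕢 (M : ℝ) τ ^ (M * n)
  rw [pow_mul, hq]
  congr 1
  rcases Nat.eq_zero_or_pos n with rfl | hn
  · simp [qc, qc₀]
  · rw [qc, qc₀, if_neg hn.ne', if_neg (Nat.mul_ne_zero hM.ne' hn.ne'), coef_zero_mul _ _ _ _ hn]

end

end Fermat.Agent.S48.EIS
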