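import Fermat.Agent.S48.EIS.Series

/-!
# S48 / EIS : separation.  `x_v = x_{v'} ⇒ v' = ± v`, over ANY field containing a primitive `M`-th root of unity
TASKS S48/EIS-SepA (`coef_eq_zero_of_lt_nu` ... `coef_nu_zero`), S48/EIS-SepB (`pow_val_injective` ... `lead_ne_zero`),
S48/EIS-SepC (`nu_eq_of_coef_eq`, `sep`, `xs_sep`).

(helper24, board #1464.)  `v = (c, d)`.  `nu v = M` if `c = 0`, `= min(c, M - c)` otherwise.  For `1 ≤ n < nu v` the coefficient
`coef z k v n` vanishes; at `n = nu v` it is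
* `z^d` resp. `(-1)^k z^{-d}`  if `c ≠ -c` (`c < M - c` resp. `c > M - c`);
* `z^d + (-1)^k z^{-d}`          if `c = -c` (i.e. `c = 0` or `2 c = M`).
For `k = 4`, `M ≥ 5`, `v` of exact order `M` this is `≠ 0` (`z^{2d} = -1 ⇒ 4 v = 0`).  So the coefficients determine `nu v`, hence `c` up
to sign; then `z^d`, resp. `z^d + z^{-d}`, determines `d`, resp. `d` up to sign.
-/

set_option autoImplicit false

namespace Fermat.Agent.S48.EIS

noncomputable section

variable {M : ℕ} [NeZero M]

/-- the index of the first nonzero coefficient of positive index. -/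
def nu (v : Fin 2 → ZMod M) : ℕ := if v 0 = 0 then M else mu v

theorem nu_pos (v : Fin 2 → ZMod M) : 0 < nu v := by
  unfold nu
  split_ifs with h
  · exact Nat.pos_of_ne_zero (NeZero.ne M)
  · exact Nat.pos_of_ne_zero fun h0 => h ((mu_eq_zero_iff v).1 h0)

section ring

variable {R : Type*} [CommRing R]

theorem coef_eq_zero_of_lt_nu (z : R) (k : ℕ) (v : Fin 2 → ZMod M) (n : ℕ) (hn : n < nu v) :
    coef z k v n = 0 := by
  unfold nu at hn
  rw [coef]
  refine Finset.sum_eq_zero fun m hm => ?_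
  split_ifs at hn with h
  · have hmn : m ∣ n := Nat.dvd_of_mem_divisors hm
    have hn0 : n ≠ 0 := (Nat.mem_divisors.1 hm).2
    have hj0 : 0 < n / m := Nat.div_pos (Nat.le_of_dvd (Nat.pos_of_ne_zero hn0) hmn)
      (Nat.pos_of_dvd_of_pos hmn (Nat.pos_of_ne_zero hn0))
    have hjM : n / m < M := lt_of_le_of_lt (Nat.div_le_self n m) hn
    have h0 : ((n / m : ℕ) : ZMod M) ≠ 0 := by
      rw [Ne, ZMod.natCast_eq_zero_iff]
      exact fun hd => absurd (Nat.le_of_dvd hj0 hd) (not_le.2 hjM)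
    rw [h, neg_zero, if_neg h0, if_neg h0]
    simp
  · exact LeadB_term_eq_zero z k v m (n / m) (lt_of_le_of_lt (Nat.div_le_self n m) hn)

/-- same proof as `coef_mu` (`Lead.lean`), where `Odd M` is only used through `v 0 ≠ - v 0`. -/
theorem coef_nu_of_ne (z : R) (k : ℕ) (v : Fin 2 → ZMod M) (hv : v 0 ≠ - v 0) :
    coef z k v (nu v) =
      if (v 0).val < M - (v 0).val then z ^ (v 1).val else (-1) ^ k * z ^ (- v 1).val := by
  have hv0 : v 0 ≠ 0 := by
    intro h
    apply hv
    rw [h, neg_zero]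
  have hc := ZMod.val_lt (v 0)
  have hc0 : (v 0).val ≠ 0 := fun h => hv0 ((ZMod.val_eq_zero _).1 h)
  have hne : (v 0).val ≠ M - (v 0).val := by
    intro h
    apply hv
    apply ZMod.val_injective
    rw [ZMod.neg_val, if_neg hv0]
    exact h
  have hμ0 : mu v ≠ 0 := fun h => hv0 ((mu_eq_zero_iff v).1 h)
  have hμM : mu v < M := lt_of_le_of_lt (min_le_left _ _) hc
  rw [nu, if_neg hv0, coef, Finset.sum_eq_single 1]
  · rw [Nat.div_one, Nat.cast_one, one_pow, one_mul, one_mul, one_mul]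
    by_cases h : (v 0).val < M - (v 0).val
    · have hμ : mu v = (v 0).val := min_eq_left h.le
      rw [if_pos h, if_pos ((LeadB_natCast_eq_iff _ hμM).2 hμ), if_neg, mul_zero, add_zero]
      rw [LeadB_natCast_eq_neg_iff _ hv0 hμM]
      omega
    · have hμ : mu v = M - (v 0).val := min_eq_right (not_lt.1 h)
      rw [if_neg h, if_neg, if_pos ((LeadB_natCast_eq_neg_iff _ hv0 hμM).2 hμ), zero_add]
      rw [LeadB_natCast_eq_iff _ hμM]
      omega
  · intro m hm hm1
    have hmd := Nat.dvd_of_mem_divisors hm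
    have hm0 : m ≠ 0 := fun h => hμ0 (by rw [h] at hmd; exact Nat.eq_zero_of_zero_dvd hmd)
    exact LeadB_term_eq_zero z k v m (mu v / m)
      (Nat.div_lt_self (Nat.pos_of_ne_zero hμ0) (by omega))
  · intro h
    exact absurd (Nat.one_mem_divisors.2 hμ0) h

/-- the case `2 c = M`. -/
theorem coef_nu_half (z : R) (k : ℕ) (v : Fin 2 → ZMod M) (hv : v 0 = - v 0) (hv0 : v 0 ≠ 0) :
    coef z k v (nu v) = z ^ (v 1).val + (-1) ^ k * z ^ (- v 1).val := by
  have hc := ZMod.val_lt (v 0)
  have heq : (v 0).val = M - (v 0).val := by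
    have h := congrArg ZMod.val hv
    rwa [ZMod.neg_val, if_neg hv0] at h
  have hμ0 : mu v ≠ 0 := fun h => hv0 ((mu_eq_zero_iff v).1 h)
  have hμM : mu v < M := lt_of_le_of_lt (min_le_left _ _) hc
  have hμ : mu v = (v 0).val := min_eq_left heq.le
  rw [nu, if_neg hv0, coef, Finset.sum_eq_single 1]
  · rw [Nat.div_one, Nat.cast_one, one_pow, one_mul, one_mul, one_mul,
      if_pos ((LeadB_natCast_eq_iff _ hμM).2 hμ),
      if_pos ((LeadB_natCast_eq_neg_iff _ hv0 hμM).2 (hμ.trans heq))]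
  · intro m hm hm1
    have hmd := Nat.dvd_of_mem_divisors hm
    have hm0 : m ≠ 0 := fun h => hμ0 (by rw [h] at hmd; exact Nat.eq_zero_of_zero_dvd hmd)
    exact LeadB_term_eq_zero z k v m (mu v / m)
      (Nat.div_lt_self (Nat.pos_of_ne_zero hμ0) (by omega))
  · intro h
    exact absurd (Nat.one_mem_divisors.2 hμ0) h

/-- the case `c = 0` (`coef_zero_mul` with `n = 1`). -/
theorem coef_nu_zero (z : R) (k : ℕ) (v : Fin 2 → ZMod M) (hv0 : v 0 = 0) :
    coef z k v (nu v) = z ^ (v 1).val + (-1) ^ k * z ^ (- v 1).val := by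
  have hv : v = ![0, v 1] := by
    funext i
    fin_cases i
    · exact hv0
    · rfl
  have h := coef_zero_mul z k (v 1) 1 one_pos
  rw [← hv, mul_one] at h
  rw [nu, if_pos hv0, h, coef₀, Nat.divisors_one, Finset.sum_singleton]
  simp

end ring

variable {R : Type*} [Field R]

theorem pow_val_injective {z : R} (hz : IsPrimitiveRoot z M) {a b : ZMod M}
    (h : z ^ a.val = z ^ b.val) : a = b :=
  ZMod.val_injective M (hz.pow_inj (ZMod.val_lt a) (ZMod.val_lt b) h)

theorem pow_neg_val {z : R} (hz : IsPrimitiveRoot z M) (a : ZMod M) :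
    z ^ (-a).val = (z ^ a.val)⁻¹ := by
  apply eq_inv_of_mul_eq_one_left
  rw [← pow_add, ZMod.neg_val]
  split_ifs with h
  · rw [h, ZMod.val_zero, add_zero, pow_zero]
  · rw [Nat.sub_add_cancel (ZMod.val_lt a).le, hz.pow_eq_one]

/-- `t + t⁻¹ = t' + t'⁻¹ ⇒ t' = t ∨ t' = t⁻¹`. -/
theorem eq_or_eq_neg_of_add_inv {z : R} (hz : IsPrimitiveRoot z M) {a b : ZMod M}
    (h : z ^ a.val + z ^ (-a).val = z ^ b.val + z ^ (-b).val) : b = a ∨ b = -a := by
  have hz0 : z ≠ 0 := hz.ne_zero (NeZero.ne M)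
  have ha : z ^ a.val ≠ 0 := pow_ne_zero _ hz0
  have hb : z ^ b.val ≠ 0 := pow_ne_zero _ hz0
  rw [pow_neg_val hz a, pow_neg_val hz b] at h
  have h1 : (z ^ b.val - z ^ a.val) * (z ^ b.val * z ^ a.val - 1) = 0 := by
    field_simp at h
    linear_combination -h
  rcases mul_eq_zero.1 h1 with h2 | h2
  · left
    exact pow_val_injective hz (sub_eq_zero.1 h2)
  · right
    apply pow_val_injective hz
    rw [pow_neg_val hz a]
    exact eq_inv_of_mul_eq_one_left (sub_eq_zero.1 h2)

/-- `z^d + z^{-d} = 0 ⇒ z^{4d} = 1 ⇒ 4 d = 0`. -/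
theorem four_mul_eq_zero {z : R} (hz : IsPrimitiveRoot z M) {d : ZMod M}
    (h : z ^ d.val + z ^ (-d).val = 0) : 4 * d = 0 := by
  have hz0 : z ≠ 0 := hz.ne_zero (NeZero.ne M)
  have hd : z ^ d.val ≠ 0 := pow_ne_zero _ hz0
  rw [pow_neg_val hz d] at h
  have h1 : (z ^ d.val) ^ 2 = -1 := by
    field_simp at h
    linear_combination h
  have h2 : z ^ (4 * d.val) = 1 := by
    rw [mul_comm, pow_mul, show (4 : ℕ) = 2 * 2 from rfl, pow_mul, h1]
    norm_num
  have h3 : M ∣ 4 * d.val := (hz.pow_eq_one_iff_dvd _).1 h2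
  have h4 : ((4 * d.val : ℕ) : ZMod M) = 0 := (ZMod.natCast_eq_zero_iff _ _).2 h3
  rw [Nat.cast_mul, ZMod.natCast_val, ZMod.cast_id', id] at h4
  exact_mod_cast h4

/-- **the first coefficient does not vanish.** -/
theorem lead_ne_zero (hM : 5 ≤ M) {z : R} (hz : IsPrimitiveRoot z M) (v : Fin 2 → ZMod M)
    (hv : addOrderOf v = M) : coef z 4 v (nu v) ≠ 0 := by
  have hz0 : z ≠ 0 := hz.ne_zero (NeZero.ne M)
  by_cases h0 : v 0 = - v 0
  · have h1 : coef z 4 v (nu v) = z ^ (v 1).val + (-1) ^ 4 * z ^ (- v 1).val := by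
      by_cases h00 : v 0 = 0
      · exact coef_nu_zero z 4 v h00
      · exact coef_nu_half z 4 v h0 h00
    rw [h1]
    intro h2
    have hone : ((-1 : R)) ^ 4 = 1 := by norm_num
    rw [hone, one_mul] at h2
    have h3 : 4 * v 1 = 0 := four_mul_eq_zero hz h2
    have h4 : 4 * v 0 = 0 := by
      have : v 0 + v 0 = 0 := by
        nth_rewrite 1 [h0]
        exact neg_add_cancel _
      linear_combination 2 * this
    have h5 : (4 : ℕ) • v = 0 := by
      funext i
      fin_cases i
      · simpa using h4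
      · simpa using h3
    have h6 : M ∣ 4 := hv ▸ addOrderOf_dvd_of_nsmul_eq_zero h5
    have := Nat.le_of_dvd (by norm_num) h6
    omega
  · rw [coef_nu_of_ne z 4 v h0]
    split_ifs
    · exact pow_ne_zero _ hz0
    · exact mul_ne_zero (by norm_num) (pow_ne_zero _ hz0)

theorem nu_eq_of_coef_eq (hM : 5 ≤ M) {z : R} (hz : IsPrimitiveRoot z M) (v v' : Fin 2 → ZMod M)
    (hv : addOrderOf v = M) (hv' : addOrderOf v' = M)
    (h : ∀ n : ℕ, 0 < n → coef z 4 v n = coef z 4 v' n) : nu v = nu v' := by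
  rcases lt_trichotomy (nu v) (nu v') with h1 | h1 | h1
  · exfalso
    apply lead_ne_zero hM hz v hv
    rw [h _ (nu_pos v)]
    exact coef_eq_zero_of_lt_nu z 4 v' _ h1
  · exact h1
  · exfalso
    apply lead_ne_zero hM hz v' hv'
    rw [← h _ (nu_pos v')]
    exact coef_eq_zero_of_lt_nu z 4 v _ h1

/-- `nu v = nu v' ⇒ c' = ± c`. -/
theorem eq_or_eq_neg_of_nu_eq (v v' : Fin 2 → ZMod M) (h : nu v = nu v') :
    v' 0 = v 0 ∨ v' 0 = - v 0 := by
  have hlt : ∀ w : Fin 2 → ZMod M, w 0 ≠ 0 → nu w < M := by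
    intro w hw
    rw [nu, if_neg hw, mu]
    exact lt_of_le_of_lt (min_le_left _ _) (ZMod.val_lt _)
  by_cases h0 : v 0 = 0
  · left
    by_contra h1
    rw [h0] at h1
    have h2 := hlt v' h1
    rw [← h, nu, if_pos h0] at h2
    exact lt_irrefl _ h2
  · by_cases h0' : v' 0 = 0
    · exfalso
      have h2 := hlt v h0
      rw [h, nu, if_pos h0'] at h2
      exact lt_irrefl _ h2
    · rw [nu, nu, if_neg h0, if_neg h0', mu, mu] at h
      have l1 := ZMod.val_lt (v 0)
      have l2 := ZMod.val_lt (v' 0)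
      have hcase : (v' 0).val = (v 0).val ∨ (v' 0).val = M - (v 0).val := by
        rcases le_total (v 0).val (M - (v 0).val) with a1 | a1 <;>
        rcases le_total (v' 0).val (M - (v' 0).val) with a2 | a2 <;>
        simp only [min_eq_left, min_eq_right, a1, a2] at h <;> omega
      rcases hcase with h3 | h3
      · left
        exact ZMod.val_injective M h3
      · right
        apply ZMod.val_injective M
        rw [h3, ZMod.neg_val, if_neg h0]

/-- **Separation.** -/
theorem sep (hM : 5 ≤ M) {z : R} (hz : IsPrimitiveRoot z M) (v v' : Fin 2 → ZMod M)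
    (hv : addOrderOf v = M) (hv' : addOrderOf v' = M)
    (h : ∀ n : ℕ, 0 < n → coef z 4 v n = coef z 4 v' n) : v' = v ∨ v' = -v := by
  have hnu := nu_eq_of_coef_eq hM hz v v' hv hv' h
  have hc := h _ (nu_pos v)
  nth_rewrite 2 [hnu] at hc
  have hext : ∀ w w' : Fin 2 → ZMod M, w 0 = w' 0 → w 1 = w' 1 → w = w' := by
    intro w w' e0 e1
    funext i
    fin_cases i
    · exact e0
    · exact e1
  have hone : ((-1 : R)) ^ 4 = 1 := by norm_num
  by_cases h0 : v 0 = - v 0
  · -- then `v' 0 = v 0 = - v 0`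
    have h0' : v' 0 = v 0 := by
      rcases eq_or_eq_neg_of_nu_eq v v' hnu with e | e
      · exact e
      · rw [e, ← h0]
    have f1 : ∀ w : Fin 2 → ZMod M, w 0 = - w 0 →
        coef z 4 w (nu w) = z ^ (w 1).val + z ^ (- w 1).val := by
      intro w hw
      by_cases h00 : w 0 = 0
      · rw [coef_nu_zero z 4 w h00, hone, one_mul]
      · rw [coef_nu_half z 4 w hw h00, hone, one_mul]
    rw [f1 v h0, f1 v' (by rw [h0', ← h0])] at hc
    rcases eq_or_eq_neg_of_add_inv hz hc with e | e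
    · left
      exact hext _ _ h0' e
    · right
      refine hext _ _ ?_ ?_
      · rw [h0', Pi.neg_apply, ← h0]
      · rw [e, Pi.neg_apply]
  · have h00 : v 0 ≠ 0 := by
      intro e
      apply h0
      rw [e, neg_zero]
    have hval : (v 0).val ≠ M - (v 0).val := by
      intro e
      apply h0
      apply ZMod.val_injective M
      rw [ZMod.neg_val, if_neg h00]
      exact e
    rcases eq_or_eq_neg_of_nu_eq v v' hnu with e | e
    · left
      have h0' : v' 0 ≠ - v' 0 := by rw [e]; exact h0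
      rw [coef_nu_of_ne z 4 v h0, coef_nu_of_ne z 4 v' h0', e, hone, one_mul, one_mul] at hc
      refine hext _ _ e ?_
      split_ifs at hc
      · exact (pow_val_injective hz hc).symm
      · exact (neg_injective (pow_val_injective hz hc)).symm
    · right
      have h0' : v' 0 ≠ - v' 0 := by
        rw [e, neg_neg]
        exact fun h => h0 h.symm
      have hv'val : (v' 0).val = M - (v 0).val := by
        rw [e, ZMod.neg_val, if_neg h00]
      have l1 := ZMod.val_lt (v 0)
      rw [coef_nu_of_ne z 4 v h0, coef_nu_of_ne z 4 v' h0', hv'val, hone, one_mul, one_mul] at hc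
      refine hext _ _ (by rw [e, Pi.neg_apply]) ?_
      rw [Pi.neg_apply]
      by_cases hlt : (v 0).val < M - (v 0).val
      · rw [if_pos hlt, if_neg (by omega)] at hc
        have := pow_val_injective hz hc
        rw [this, neg_neg]
      · rw [if_neg hlt, if_pos (by omega)] at hc
        exact (pow_val_injective hz hc).symm

theorem gs_sep (hM : 5 ≤ M) {z : R} (hz : IsPrimitiveRoot z M) (v v' : Fin 2 → ZMod M)
    (hv : addOrderOf v = M) (hv' : addOrderOf v' = M) (h : gs z 4 v = gs z 4 v') :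
    v' = v ∨ v' = -v := by
  refine sep hM hz v v' hv hv' fun n hn => ?_
  have h1 := congrArg (fun f => PowerSeries.coeff n f) h
  simp only [coeff_gs, nc, if_neg hn.ne'] at h1
  exact h1

/-- **`x_v = x_{v'} ↔ v' = ± v`.** -/
theorem xs_eq_iff_eq_or_neg (hM : 5 ≤ M) {z : R} (hz : IsPrimitiveRoot z M)
    (v v' : Fin 2 → ZMod M) (hv : addOrderOf v = M) (hv' : addOrderOf v' = M) :
    xs z v = xs z v' ↔ (v' = v ∨ v' = -v) := by
  constructor
  · intro h
    exact gs_sep hM hz v v' hv hv' ((xs_eq_iff z v v').1 h)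
  · rintro (rfl | rfl)
    · rfl
    · exact (xs_neg z hz.pow_eq_one v).symm

end

end Fermat.Agent.S48.EIS
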